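import Fermat.Agent.Corollaries.K4S.Trace
import Fermat.Agent.Corollaries.Surj.Inertia

/-!
# The conductor divides the level

`W` residually modular at the odd prime `p` of level `M`, `W[p]` irreducible, `q ≠ p` a prime of
multiplicative reduction with `p ∤ v_q(Δ)`: then `q ∣ M`.
-/

set_option autoImplicit false
set_option linter.style.haveILetI false

noncomputable section

namespace Fermat.Agent.Cor

open Polynomial WeierstrassCurve WeierstrassCurve.Affine WeierstrassCurve.Affine.Point
open Fermat.Agent Fermat.Agent.ECFrob Fermat.Agent.Torsion Fermat.Agent.ECRed Fermat.Agent.Ribet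
open ModularFormClass

section Abstract

variable {K V : Type*} [Field K] [AddCommGroup V] [Module K V]

/-- Cayley-Hamilton in dimension two. -/
theorem mul_self_eq_of_finrank_two (h2 : Module.finrank K V = 2) (f : Module.End K V) :
    f * f = LinearMap.trace K V f • f - LinearMap.det f • (1 : Module.End K V) := by
  have : Module.Finite K V := Module.finite_of_finrank_eq_succ h2
  let b := Module.finBasisOfFinrankEq _ _ h2
  have h3 := LinearMap.aeval_self_charpoly f
  rw [← LinearMap.charpoly_toMatrix f b, Matrix.charpoly_fin_two] at h3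
  simp only [map_add, map_sub, map_mul, map_pow, aeval_X, aeval_C] at h3
  rw [Module.algebraMap_end_eq_smul_id, Module.algebraMap_end_eq_smul_id] at h3
  rw [← LinearMap.trace_eq_matrix_trace, LinearMap.det_toMatrix] at h3
  have h4 : f ^ 2 = f * f := sq f
  rw [h4] at h3
  rw [sub_add, sub_eq_zero] at h3
  rw [h3]
  congr 1

/-- An element `s` with `tr r(s g) = tr r(g)` for all `g` is in the kernel of the irreducible
two-dimensional representation `r`. -/
theorem eq_one_of_trace_mul {G : Type*} [Group G] (hK : (2 : K) ≠ 0)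
    (h2 : Module.finrank K V = 2) (r : G →* Module.End K V)
    (hirr : ∀ L : Submodule K V, (∀ g, ∀ x ∈ L, r g x ∈ L) → L = ⊥ ∨ L = ⊤) {s : G}
    (h : ∀ g, LinearMap.trace K V (r (s * g)) = LinearMap.trace K V (r g)) : r s = 1 := by
  have hfin : Module.Finite K V := Module.finite_of_finrank_eq_succ h2
  set n : Module.End K V := r s - 1 with hn
  have hrs : r s = n + 1 := by rw [hn]; abel
  have htr : ∀ g, LinearMap.trace K V (n * r g) = 0 := by
    intro g
    have h1 := h g
    rw [map_mul, hrs, add_mul, one_mul, map_add] at h1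
    exact add_eq_right.mp h1
  have htr1 : LinearMap.trace K V n = 0 := by
    have := htr 1
    rwa [map_one, mul_one] at this
  have hnn : n * n = -(LinearMap.det n • (1 : Module.End K V)) := by
    rw [mul_self_eq_of_finrank_two h2, htr1, zero_smul, zero_sub]
  have hdet : LinearMap.det n = 0 := by
    have h1 := htr s
    rw [hrs, mul_add, mul_one, map_add, htr1, add_zero, hnn, map_neg, map_smul,
      LinearMap.trace_one, h2, neg_eq_zero, smul_eq_mul] at h1
    rcases mul_eq_zero.mp h1 with h3 | h3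
    · exact h3
    · exact absurd h3 (by exact_mod_cast hK)
  have hngn : ∀ g, n * r g * n = 0 := by
    intro g
    have h1 : (n * r g) * (n * r g) = 0 := by
      rw [mul_self_eq_of_finrank_two h2, htr g, map_mul, hdet, zero_mul, zero_smul, zero_smul,
        sub_zero]
    have h3 : r g * r g⁻¹ = 1 := by rw [← map_mul, mul_inv_cancel, map_one]
    calc n * r g * n = n * r g * n * (r g * r g⁻¹) := by rw [h3, mul_one]
      _ = (n * r g) * (n * r g) * r g⁻¹ := by simp only [mul_assoc]
      _ = 0 := by rw [h1, zero_mul]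
  by_contra hne
  have hn0 : n ≠ 0 := fun h0 => hne (by rw [hrs, h0, zero_add])
  let L : Submodule K V := Submodule.span K {x | ∃ g y, x = r g (n y)}
  have hL : ∀ g, ∀ x ∈ L, r g x ∈ L := by
    intro g x hx
    induction hx using Submodule.span_induction with
    | mem x hx =>
      obtain ⟨g', y, rfl⟩ := hx
      refine Submodule.subset_span ⟨g * g', y, ?_⟩
      rw [map_mul, Module.End.mul_apply]
    | zero => rw [_root_.map_zero]; exact L.zero_mem
    | add x y _ _ hx hy => rw [map_add]; exact L.add_mem hx hy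
    | smul c x _ hx => rw [map_smul]; exact L.smul_mem c hx
  have hker : ∀ x ∈ L, n x = 0 := by
    intro x hx
    induction hx using Submodule.span_induction with
    | mem x hx =>
      obtain ⟨g', y, rfl⟩ := hx
      have := LinearMap.congr_fun (hngn g') y
      simpa only [Module.End.mul_apply, LinearMap.zero_apply] using this
    | zero => rw [_root_.map_zero]
    | add x y _ _ hx hy => rw [map_add, hx, hy, add_zero]
    | smul c x _ hx => rw [map_smul, hx, smul_zero]
  rcases hirr L hL with h1 | h1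
  · apply hn0
    refine LinearMap.ext fun y => ?_
    have h3 : n y ∈ L := Submodule.subset_span ⟨1, y, by rw [map_one, Module.End.one_apply]⟩
    rw [h1, Submodule.mem_bot] at h3
    rw [h3, LinearMap.zero_apply]
  · apply hn0
    refine LinearMap.ext fun y => ?_
    rw [hker y (by rw [h1]; exact Submodule.mem_top), LinearMap.zero_apply]

end Abstract

variable {W : WeierstrassCurve ℤ} {p : ℕ} [hp : Fact p.Prime]

/-- Residual modularity of level `M` makes `W[p]` unramified at the primes which do not divide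
`M p`, if `W[p]` is irreducible. -/
theorem rho_eq_one_of_resMod (hΔ : W.Δ ≠ 0) (hp2 : p ≠ 2) (hirr : W.ModRepIsIrreducible p)
    {M : ℕ} (hM : M ≠ 0) (h : W.IsResiduallyModularOfLevel p M) {q : ℕ} (hq : q.Prime)
    (hqM : ¬ q ∣ M) (hqp : q ≠ p) {A : ValuationSubring (AlgebraicClosure ℚ)}
    (hA : A.LiesOverPrime q) {σ : AlgebraicClosure ℚ ≃ₐ[ℚ] AlgebraicClosure ℚ}
    (hσ : σ ∈ A.inertiaSubgroupIn ℚ) : rho W p σ = 1 := by
  obtain ⟨f, 𝔪, hf, h𝔪, hp𝔪, hcong⟩ := h
  letI instF : Field (integralClosure ℤ ℂ ⧸ 𝔪) := Ideal.Quotient.field 𝔪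
  let φ : integralClosure ℤ ℂ →+* (integralClosure ℤ ℂ ⧸ 𝔪) := Ideal.Quotient.mk 𝔪
  haveI hchar : CharP (integralClosure ℤ ℂ ⧸ 𝔪) p := by
    rw [CharP.charP_iff_prime_eq_zero hp.out]
    have h1 : φ (p : integralClosure ℤ ℂ) = 0 := Ideal.Quotient.eq_zero_iff_mem.mpr hp𝔪
    rw [map_natCast] at h1
    exact h1
  have hS : ({p} ∪ {q | q ∣ M} : Set ℕ).Finite := by
    refine (Set.finite_singleton p).union ?_
    refine (Finset.finite_toSet (M.divisors)).subset fun ℓ hℓ => ?_
    rw [Finset.mem_coe, Nat.mem_divisors]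
    exact ⟨hℓ, hM⟩
  obtain ⟨ρ, hρ, hunr⟩ := Fermat.Agent.S29.result hf hp.out φ
  have hq1 : ρ.ρ σ = 1 := hunr q hq (fun h' => by
    rcases hq.dvd_mul.mp h' with h1 | h1
    · exact hqM h1
    · exact hqp ((Nat.prime_dvd_prime_iff_eq hq hp.out).mp h1)) A hA σ hσ
  have htr := trace_eq_trace_of_attached hM hΔ φ ρ hρ hS (by
    intro q hq hqS hgood x hx
    simp only [Set.mem_union, Set.mem_ofPred_eq, Set.mem_singleton_iff, not_or] at hqS
    obtain ⟨b, hb, hb'⟩ := hcong q hq hgood hqS.2 hqS.1
    have h1 : x = b := Subtype.ext (hx.trans hb.symm)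
    rw [h1, ← sub_eq_zero, ← map_intCast φ, ← map_sub]
    exact Ideal.Quotient.eq_zero_iff_mem.mpr hb')
  have h2 : (2 : ZMod p) ≠ 0 := by
    intro h0
    have h1 : ((2 : ℕ) : ZMod p) = 0 := by exact_mod_cast h0
    rw [ZMod.natCast_eq_zero_iff] at h1
    exact hp2 ((Nat.prime_dvd_prime_iff_eq hp.out Nat.prime_two).mp h1)
  refine eq_one_of_trace_mul h2 (finrank_rat hΔ) (rho W p) (fun L hL => hirr.2 L hL) ?_
  intro τ
  apply (ZMod.castHom (dvd_refl p) (integralClosure ℤ ℂ ⧸ 𝔪)).injective
  rw [← htr, ← htr, map_mul, hq1, one_mul]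

/-- **The conductor of `W[p]` divides the level.** -/
theorem dvd_of_resMod (hp2 : p ≠ 2) (hirr : W.ModRepIsIrreducible p)
    {M : ℕ} (hM : M ≠ 0) (h : W.IsResiduallyModularOfLevel p M) {q : ℕ} (hW : IsMultAt W q)
    (hqp : q ≠ p) (hv : ¬ p ∣ padicValInt q W.Δ) : q ∣ M := by
  by_contra hqM
  obtain ⟨A, hA⟩ : ∃ A : ValuationSubring (AlgebraicClosure ℚ), A.LiesOverPrime q := by
    obtain ⟨A, hA, -⟩ := Frob.exists_frobenius q hW.prime
    exact ⟨A, hA⟩
  obtain ⟨σ, hσ, hord⟩ := exists_inertia_order hW hp.out hp2 hv hA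
  have h1 := rho_eq_one_of_resMod hW.ne hp2 hirr hM h hW.prime hqM hqp hA hσ
  have h2 : MulAction.toPermHom (AlgebraicClosure ℚ ≃ₐ[ℚ] AlgebraicClosure ℚ)
        (Submodule.torsionBy ℤ (EQ W).Point (p : ℤ)) σ = 1 := by
    refine Equiv.ext fun x => ?_
    have h3 := LinearMap.congr_fun h1 x
    rw [galoisRepModuleEnd_apply, Module.End.one_apply] at h3
    exact h3
  rw [h2, orderOf_one] at hord
  exact hp.out.one_lt.ne hord

end Fermat.Agent.Cor
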