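import Fermat.Agent.Corollaries.CondLevel
import Fermat.Agent.Corollaries.InvGal.Curve37

/-!
# Corollaries, K4S: the forms of small level attached to elliptic curves

For the curves `11a3`, `14a4`, `17a4`, `19a3`, `26a3`, `26b1`, `34a1`, `38a`, `38b`: the normalised
eigenform of level the conductor, with its coefficients at `3` and `5` (modularity of semistable curves and
counting of points).
-/

set_option autoImplicit false

open WeierstrassCurve CuspForm ModularFormClass CongruenceSubgroup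

namespace Fermat.Agent.Cor.K4S

open Fermat.Agent.Cor.InvGal

/-- The form of a semistable curve with given conductor `M`; all hypotheses are decidable for a numerical
curve. -/
theorem exists_form_of_curve {W : WeierstrassCurve ℤ} {M k : ℕ} (hM : Squarefree M)
    (hΔ : W.Δ ≠ 0) (h1 : (M : ℤ) ∣ W.Δ) (h2 : W.Δ ∣ (M : ℤ) ^ k) (h3 : Int.gcd M W.c₄ = 1) :
    ∃ g : CuspForm (Gamma0 M) 2, g.IsNormalizedEigenform ∧
      ∀ (p : ℕ) [NeZero p], p.Prime → ¬ p ∣ M → qCoeff ⇑g p = (((p : ℤ) - cnt W p : ℤ) : ℂ) := by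
  have hq : ∀ q : ℕ, q.Prime → (q ∣ M ↔ (q : ℤ) ∣ W.Δ) := fun q hq =>
    ⟨fun h => (Int.natCast_dvd_natCast.mpr h).trans h1, fun h => by
      have h4 : (q : ℤ) ∣ (M : ℤ) ^ k := h.trans h2
      exact Int.natCast_dvd_natCast.mp ((Nat.prime_iff_prime_int.mp hq).dvd_of_dvd_pow h4)⟩
  have hW : W.IsSemistableModel := fun q hqp hd hc => by
    have h4 : q ∣ M := (hq q hqp).mpr hd
    have h5 : (q : ℤ) ∣ ((Int.gcd M W.c₄ : ℕ) : ℤ) :=
      Int.dvd_coe_gcd (Int.natCast_dvd_natCast.mpr h4) hc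
    rw [h3] at h5
    exact (Nat.prime_iff_prime_int.mp hqp).not_dvd_one (by exact_mod_cast h5)
  obtain rfl := eq_conductorLevel hΔ hM hq
  obtain ⟨g, hg, hgp⟩ := exists_form_conductor hΔ hW
  refine ⟨g, hg, fun p _ hp hpM => ?_⟩
  have hgood : W.IsGoodPrimeFor p := fun hd => hpM ((hq p hp).mpr hd)
  rw [hgp p hp hgood, apOfModel_eq W hp hgood]

theorem squarefree_of {M : ℕ} (h : M ∈ ({11, 14, 17, 19, 22, 26, 34, 38} : Finset ℕ)) :
    Squarefree M := by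
  simp only [Finset.mem_insert, Finset.mem_singleton] at h
  rcases h with rfl | rfl | rfl | rfl | rfl | rfl | rfl | rfl <;> decide +kernel

/-- the form of level `11` -/
theorem form11 : ∃ g : CuspForm (Gamma0 11) 2, g.IsNormalizedEigenform ∧
    qCoeff ⇑g 3 = -1 ∧ qCoeff ⇑g 5 = 1 := by
  obtain ⟨g, hg, h⟩ := exists_form_of_curve (W := ⟨0, -1, 1, 0, 0⟩) (M := 11) (k := 1)
    (squarefree_of (by decide)) (by decide) (by decide) (by decide) (by decide)
  refine ⟨g, hg, ?_, ?_⟩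
  · rw [h 3 Nat.prime_three (by decide), show cnt ⟨0, -1, 1, 0, 0⟩ 3 = 4 by decide +kernel]
    norm_num
  · rw [h 5 Nat.prime_five (by decide), show cnt ⟨0, -1, 1, 0, 0⟩ 5 = 4 by decide +kernel]
    norm_num

/-- the form of level `14` -/
theorem form14 : ∃ g : CuspForm (Gamma0 14) 2, g.IsNormalizedEigenform ∧
    qCoeff ⇑g 3 = -2 ∧ qCoeff ⇑g 5 = 0 := by
  obtain ⟨g, hg, h⟩ := exists_form_of_curve (W := ⟨1, 0, 1, -1, 0⟩) (M := 14) (k := 2)
    (squarefree_of (by decide)) (by decide) (by decide) (by decide) (by decide)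
  refine ⟨g, hg, ?_, ?_⟩
  · rw [h 3 Nat.prime_three (by decide), show cnt ⟨1, 0, 1, -1, 0⟩ 3 = 5 by decide +kernel]
    norm_num
  · rw [h 5 Nat.prime_five (by decide), show cnt ⟨1, 0, 1, -1, 0⟩ 5 = 5 by decide +kernel]
    norm_num

/-- the form of level `17` -/
theorem form17 : ∃ g : CuspForm (Gamma0 17) 2, g.IsNormalizedEigenform ∧
    qCoeff ⇑g 3 = 0 ∧ qCoeff ⇑g 5 = -2 := by
  obtain ⟨g, hg, h⟩ := exists_form_of_curve (W := ⟨1, -1, 1, -1, 0⟩) (M := 17) (k := 1)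
    (squarefree_of (by decide)) (by decide) (by decide) (by decide) (by decide)
  refine ⟨g, hg, ?_, ?_⟩
  · rw [h 3 Nat.prime_three (by decide), show cnt ⟨1, -1, 1, -1, 0⟩ 3 = 3 by decide +kernel]
    norm_num
  · rw [h 5 Nat.prime_five (by decide), show cnt ⟨1, -1, 1, -1, 0⟩ 5 = 7 by decide +kernel]
    norm_num

/-- the form of level `19` -/
theorem form19 : ∃ g : CuspForm (Gamma0 19) 2, g.IsNormalizedEigenform ∧
    qCoeff ⇑g 3 = -2 ∧ qCoeff ⇑g 5 = 3 := by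
  obtain ⟨g, hg, h⟩ := exists_form_of_curve (W := ⟨0, 1, 1, 1, 0⟩) (M := 19) (k := 1)
    (squarefree_of (by decide)) (by decide) (by decide) (by decide) (by decide)
  refine ⟨g, hg, ?_, ?_⟩
  · rw [h 3 Nat.prime_three (by decide), show cnt ⟨0, 1, 1, 1, 0⟩ 3 = 5 by decide +kernel]
    norm_num
  · rw [h 5 Nat.prime_five (by decide), show cnt ⟨0, 1, 1, 1, 0⟩ 5 = 2 by decide +kernel]
    norm_num

/-- the first form of level `26` -/
theorem form26a : ∃ g : CuspForm (Gamma0 26) 2, g.IsNormalizedEigenform ∧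
    qCoeff ⇑g 3 = 1 ∧ qCoeff ⇑g 5 = -3 := by
  obtain ⟨g, hg, h⟩ := exists_form_of_curve (W := ⟨1, 0, 1, 0, 0⟩) (M := 26) (k := 1)
    (squarefree_of (by decide)) (by decide) (by decide) (by decide) (by decide)
  refine ⟨g, hg, ?_, ?_⟩
  · rw [h 3 Nat.prime_three (by decide), show cnt ⟨1, 0, 1, 0, 0⟩ 3 = 2 by decide +kernel]
    norm_num
  · rw [h 5 Nat.prime_five (by decide), show cnt ⟨1, 0, 1, 0, 0⟩ 5 = 8 by decide +kernel]
    norm_num

/-- the second form of level `26` -/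
theorem form26b : ∃ g : CuspForm (Gamma0 26) 2, g.IsNormalizedEigenform ∧
    qCoeff ⇑g 3 = -3 ∧ qCoeff ⇑g 5 = -1 := by
  obtain ⟨g, hg, h⟩ := exists_form_of_curve (W := ⟨1, -1, 1, -3, 3⟩) (M := 26) (k := 7)
    (squarefree_of (by decide)) (by decide) (by decide) (by decide) (by decide)
  refine ⟨g, hg, ?_, ?_⟩
  · rw [h 3 Nat.prime_three (by decide), show cnt ⟨1, -1, 1, -3, 3⟩ 3 = 6 by decide +kernel]
    norm_num
  · rw [h 5 Nat.prime_five (by decide), show cnt ⟨1, -1, 1, -3, 3⟩ 5 = 6 by decide +kernel]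
    norm_num

/-- the newform of level `34` -/
theorem form34 : ∃ g : CuspForm (Gamma0 34) 2, g.IsNormalizedEigenform ∧
    qCoeff ⇑g 3 = -2 ∧ qCoeff ⇑g 5 = 0 := by
  obtain ⟨g, hg, h⟩ := exists_form_of_curve (W := ⟨1, 0, 0, -3, 1⟩) (M := 34) (k := 6)
    (squarefree_of (by decide)) (by decide) (by decide) (by decide) (by decide)
  refine ⟨g, hg, ?_, ?_⟩
  · rw [h 3 Nat.prime_three (by decide), show cnt ⟨1, 0, 0, -3, 1⟩ 3 = 5 by decide +kernel]
    norm_num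
  · rw [h 5 Nat.prime_five (by decide), show cnt ⟨1, 0, 0, -3, 1⟩ 5 = 5 by decide +kernel]
    norm_num

/-- the first newform of level `38` -/
theorem form38a : ∃ g : CuspForm (Gamma0 38) 2, g.IsNormalizedEigenform ∧
    qCoeff ⇑g 3 = 1 ∧ qCoeff ⇑g 5 = 0 := by
  obtain ⟨g, hg, h⟩ := exists_form_of_curve (W := ⟨1, 0, 1, -16, 22⟩) (M := 38) (k := 3)
    (squarefree_of (by decide)) (by decide) (by decide) (by decide) (by decide)
  refine ⟨g, hg, ?_, ?_⟩
  · rw [h 3 Nat.prime_three (by decide), show cnt ⟨1, 0, 1, -16, 22⟩ 3 = 2 by decide +kernel]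
    norm_num
  · rw [h 5 Nat.prime_five (by decide), show cnt ⟨1, 0, 1, -16, 22⟩ 5 = 5 by decide +kernel]
    norm_num

/-- the second newform of level `38` -/
theorem form38b : ∃ g : CuspForm (Gamma0 38) 2, g.IsNormalizedEigenform ∧
    qCoeff ⇑g 3 = -1 ∧ qCoeff ⇑g 5 = -4 := by
  obtain ⟨g, hg, h⟩ := exists_form_of_curve (W := ⟨1, 1, 1, 0, 1⟩) (M := 38) (k := 5)
    (squarefree_of (by decide)) (by decide) (by decide) (by decide) (by decide)
  refine ⟨g, hg, ?_, ?_⟩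
  · rw [h 3 Nat.prime_three (by decide), show cnt ⟨1, 1, 1, 0, 1⟩ 3 = 4 by decide +kernel]
    norm_num
  · rw [h 5 Nat.prime_five (by decide), show cnt ⟨1, 1, 1, 0, 1⟩ 5 = 9 by decide +kernel]
    norm_num

/-! ### The coefficient at `3` only -/

theorem exists_eigen_11 : ∃ g : CuspForm (Gamma0 11) 2, g.IsNormalizedEigenform ∧
    qCoeff ⇑g 3 = -1 :=
  form11.imp fun _ h => ⟨h.1, h.2.1⟩

theorem exists_eigen_14 : ∃ g : CuspForm (Gamma0 14) 2, g.IsNormalizedEigenform ∧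
    qCoeff ⇑g 3 = -2 :=
  form14.imp fun _ h => ⟨h.1, h.2.1⟩

theorem exists_eigen_17 : ∃ g : CuspForm (Gamma0 17) 2, g.IsNormalizedEigenform ∧
    qCoeff ⇑g 3 = 0 :=
  form17.imp fun _ h => ⟨h.1, h.2.1⟩

theorem exists_eigen_19 : ∃ g : CuspForm (Gamma0 19) 2, g.IsNormalizedEigenform ∧
    qCoeff ⇑g 3 = -2 :=
  form19.imp fun _ h => ⟨h.1, h.2.1⟩

theorem exists_eigen_26a : ∃ g : CuspForm (Gamma0 26) 2, g.IsNormalizedEigenform ∧
    qCoeff ⇑g 3 = 1 :=
  form26a.imp fun _ h => ⟨h.1, h.2.1⟩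

theorem exists_eigen_26b : ∃ g : CuspForm (Gamma0 26) 2, g.IsNormalizedEigenform ∧
    qCoeff ⇑g 3 = -3 :=
  form26b.imp fun _ h => ⟨h.1, h.2.1⟩

theorem exists_eigen_34 : ∃ g : CuspForm (Gamma0 34) 2, g.IsNormalizedEigenform ∧
    qCoeff ⇑g 3 = -2 :=
  form34.imp fun _ h => ⟨h.1, h.2.1⟩

theorem exists_eigen_38a : ∃ g : CuspForm (Gamma0 38) 2, g.IsNormalizedEigenform ∧
    qCoeff ⇑g 3 = 1 :=
  form38a.imp fun _ h => ⟨h.1, h.2.1⟩

theorem exists_eigen_38b : ∃ g : CuspForm (Gamma0 38) 2, g.IsNormalizedEigenform ∧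
    qCoeff ⇑g 3 = -1 :=
  form38b.imp fun _ h => ⟨h.1, h.2.1⟩

end Fermat.Agent.Cor.K4S
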