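import Fermat.Agent.Corollaries.K4S.Curves
import Fermat.Agent.Corollaries.HW.Newform
import Fermat.Agent.Corollaries.HW.Irred

/-!
# Corollaries, K4S: the newforms of level `46`, `58`, `106`, `118` attached to elliptic curves

The eleven isogeny classes of elliptic curves of these conductors, each with its newform and the
coefficients at `3` and `5`.
-/

set_option autoImplicit false

open WeierstrassCurve CuspForm ModularFormClass CongruenceSubgroup

namespace Fermat.Agent.Cor.K4S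

open Fermat.Agent.Cor.InvGal

/-- The newform of a semistable curve with given conductor `M`; all hypotheses are decidable for a
numerical curve. -/
theorem exists_newform_of_curve {W : WeierstrassCurve ℤ} {M k : ℕ} (hM : Squarefree M)
    (hΔ : W.Δ ≠ 0) (h1 : (M : ℤ) ∣ W.Δ) (h2 : W.Δ ∣ (M : ℤ) ^ k) (h3 : Int.gcd M W.c₄ = 1) :
    ∃ g : CuspForm (Gamma0 M) 2, g.IsNewform ∧
      ∀ (p : ℕ) [NeZero p], p.Prime → ¬ p ∣ M → qCoeff ⇑g p = (((p : ℤ) - cnt W p : ℤ) : ℂ) := by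
  have hq : ∀ q : ℕ, q.Prime → (q ∣ M ↔ (q : ℤ) ∣ W.Δ) := fun q hq =>
    ⟨fun h => (Int.natCast_dvd_natCast.mpr h).trans h1, fun h => by
      have h4 : (q : ℤ) ∣ (M : ℤ) ^ k := h.trans h2
      exact Int.natCast_dvd_natCast.mp ((Nat.prime_iff_prime_int.mp hq).dvd_of_dvd_pow h4)⟩
  have hW : W.IsSemistableModel := fun q hqp hd hc => by
    have h4 : q ∣ M := (hq q hqp).mpr hd
    have h5 : (q : ℤ) ∣ ((Int.gcd M W.c₄ : ℕ) : ℤ) :=
      Int.dvd_coe_gcd (Int.natCast_dvd_natCast.mpr h4) hc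
    rw [h3] at h5
    exact (Nat.prime_iff_prime_int.mp hqp).not_dvd_one (by exact_mod_cast h5)
  have hM0 : NeZero M := ⟨hM.ne_zero⟩
  have hcl := eq_conductorLevel hΔ hM hq
  obtain ⟨g, hg, hgp⟩ : ∃ g : CuspForm (Gamma0 M) 2, g.IsNormalizedEigenform ∧
      ∀ p : ℕ, p.Prime → W.IsGoodPrimeFor p → qCoeff ⇑g p = (W.apOfModel p : ℂ) := by
    rw [hcl]
    exact exists_form_conductor hΔ hW
  have hgood : ∀ p : ℕ, p.Prime → ¬ p ∣ M → W.IsGoodPrimeFor p := fun p hp hpM hd =>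
    hpM ((hq p hp).mpr hd)
  refine ⟨g, HW.isNewform_of_exact hΔ hW hM hq hg
    (fun p hp hpM => hgp p hp (hgood p hp hpM)) (HW.exists_bound_irreducible hΔ hW),
    fun p _ hp hpM => ?_⟩
  rw [hgp p hp (hgood p hp hpM), apOfModel_eq W hp (hgood p hp hpM)]

/-- the newform of the curve `46` -/
theorem newform46 : ∃ g : CuspForm (Gamma0 46) 2, g.IsNewform ∧
    qCoeff ⇑g 3 = 0 ∧ qCoeff ⇑g 5 = 4 := by
  obtain ⟨g, hg, h⟩ := exists_newform_of_curve (W := ⟨1, -1, 0, -10, -12⟩) (M := 46) (k := 10)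
    (by decide +kernel) (by decide +kernel) (by decide +kernel) (by decide +kernel)
    (by decide +kernel)
  refine ⟨g, hg, ?_, ?_⟩
  · rw [h 3 Nat.prime_three (by decide), show cnt ⟨1, -1, 0, -10, -12⟩ 3 = 3 by decide +kernel]
    norm_num
  · rw [h 5 Nat.prime_five (by decide), show cnt ⟨1, -1, 0, -10, -12⟩ 5 = 1 by decide +kernel]
    norm_num

/-- the newform of the curve `58a` -/
theorem newform58a : ∃ g : CuspForm (Gamma0 58) 2, g.IsNewform ∧
    qCoeff ⇑g 3 = -3 ∧ qCoeff ⇑g 5 = -3 := by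
  obtain ⟨g, hg, h⟩ := exists_newform_of_curve (W := ⟨1, -1, 0, -1, 1⟩) (M := 58) (k := 2)
    (by decide +kernel) (by decide +kernel) (by decide +kernel) (by decide +kernel)
    (by decide +kernel)
  refine ⟨g, hg, ?_, ?_⟩
  · rw [h 3 Nat.prime_three (by decide), show cnt ⟨1, -1, 0, -1, 1⟩ 3 = 6 by decide +kernel]
    norm_num
  · rw [h 5 Nat.prime_five (by decide), show cnt ⟨1, -1, 0, -1, 1⟩ 5 = 8 by decide +kernel]
    norm_num

/-- the newform of the curve `58b` -/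
theorem newform58b : ∃ g : CuspForm (Gamma0 58) 2, g.IsNewform ∧
    qCoeff ⇑g 3 = -1 ∧ qCoeff ⇑g 5 = 1 := by
  obtain ⟨g, hg, h⟩ := exists_newform_of_curve (W := ⟨1, 1, 1, 5, 9⟩) (M := 58) (k := 10)
    (by decide +kernel) (by decide +kernel) (by decide +kernel) (by decide +kernel)
    (by decide +kernel)
  refine ⟨g, hg, ?_, ?_⟩
  · rw [h 3 Nat.prime_three (by decide), show cnt ⟨1, 1, 1, 5, 9⟩ 3 = 4 by decide +kernel]
    norm_num
  · rw [h 5 Nat.prime_five (by decide), show cnt ⟨1, 1, 1, 5, 9⟩ 5 = 4 by decide +kernel]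
    norm_num

/-- the newform of the curve `106a` -/
theorem newform106a : ∃ g : CuspForm (Gamma0 106) 2, g.IsNewform ∧
    qCoeff ⇑g 3 = -2 ∧ qCoeff ⇑g 5 = 3 := by
  obtain ⟨g, hg, h⟩ := exists_newform_of_curve (W := ⟨1, 0, 0, 1, 1⟩) (M := 106) (k := 3)
    (by decide +kernel) (by decide +kernel) (by decide +kernel) (by decide +kernel)
    (by decide +kernel)
  refine ⟨g, hg, ?_, ?_⟩
  · rw [h 3 Nat.prime_three (by decide), show cnt ⟨1, 0, 0, 1, 1⟩ 3 = 5 by decide +kernel]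
    norm_num
  · rw [h 5 Nat.prime_five (by decide), show cnt ⟨1, 0, 0, 1, 1⟩ 5 = 2 by decide +kernel]
    norm_num

/-- the newform of the curve `106b` -/
theorem newform106b : ∃ g : CuspForm (Gamma0 106) 2, g.IsNewform ∧
    qCoeff ⇑g 3 = -1 ∧ qCoeff ⇑g 5 = -4 := by
  obtain ⟨g, hg, h⟩ := exists_newform_of_curve (W := ⟨1, 1, 0, -7, 5⟩) (M := 106) (k := 4)
    (by decide +kernel) (by decide +kernel) (by decide +kernel) (by decide +kernel)
    (by decide +kernel)
  refine ⟨g, hg, ?_, ?_⟩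
  · rw [h 3 Nat.prime_three (by decide), show cnt ⟨1, 1, 0, -7, 5⟩ 3 = 4 by decide +kernel]
    norm_num
  · rw [h 5 Nat.prime_five (by decide), show cnt ⟨1, 1, 0, -7, 5⟩ 5 = 9 by decide +kernel]
    norm_num

/-- the newform of the curve `106c` -/
theorem newform106c : ∃ g : CuspForm (Gamma0 106) 2, g.IsNewform ∧
    qCoeff ⇑g 3 = 1 ∧ qCoeff ⇑g 5 = 0 := by
  obtain ⟨g, hg, h⟩ := exists_newform_of_curve (W := ⟨1, 0, 0, -283, -2351⟩) (M := 106) (k := 24)
    (by decide +kernel) (by decide +kernel) (by decide +kernel) (by decide +kernel)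
    (by decide +kernel)
  refine ⟨g, hg, ?_, ?_⟩
  · rw [h 3 Nat.prime_three (by decide), show cnt ⟨1, 0, 0, -283, -2351⟩ 3 = 2 by decide +kernel]
    norm_num
  · rw [h 5 Nat.prime_five (by decide), show cnt ⟨1, 0, 0, -283, -2351⟩ 5 = 5 by decide +kernel]
    norm_num

/-- the newform of the curve `106d` -/
theorem newform106d : ∃ g : CuspForm (Gamma0 106) 2, g.IsNewform ∧
    qCoeff ⇑g 3 = 2 ∧ qCoeff ⇑g 5 = 1 := by
  obtain ⟨g, hg, h⟩ := exists_newform_of_curve (W := ⟨1, 1, 0, -27, -67⟩) (M := 106) (k := 5)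
    (by decide +kernel) (by decide +kernel) (by decide +kernel) (by decide +kernel)
    (by decide +kernel)
  refine ⟨g, hg, ?_, ?_⟩
  · rw [h 3 Nat.prime_three (by decide), show cnt ⟨1, 1, 0, -27, -67⟩ 3 = 1 by decide +kernel]
    norm_num
  · rw [h 5 Nat.prime_five (by decide), show cnt ⟨1, 1, 0, -27, -67⟩ 5 = 4 by decide +kernel]
    norm_num

/-- the newform of the curve `118a` -/
theorem newform118a : ∃ g : CuspForm (Gamma0 118) 2, g.IsNewform ∧
    qCoeff ⇑g 3 = -1 ∧ qCoeff ⇑g 5 = -3 := by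
  obtain ⟨g, hg, h⟩ := exists_newform_of_curve (W := ⟨1, 1, 0, 1, 1⟩) (M := 118) (k := 2)
    (by decide +kernel) (by decide +kernel) (by decide +kernel) (by decide +kernel)
    (by decide +kernel)
  refine ⟨g, hg, ?_, ?_⟩
  · rw [h 3 Nat.prime_three (by decide), show cnt ⟨1, 1, 0, 1, 1⟩ 3 = 4 by decide +kernel]
    norm_num
  · rw [h 5 Nat.prime_five (by decide), show cnt ⟨1, 1, 0, 1, 1⟩ 5 = 8 by decide +kernel]
    norm_num

/-- the newform of the curve `118b` -/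
theorem newform118b : ∃ g : CuspForm (Gamma0 118) 2, g.IsNewform ∧
    qCoeff ⇑g 3 = 2 ∧ qCoeff ⇑g 5 = -2 := by
  obtain ⟨g, hg, h⟩ := exists_newform_of_curve (W := ⟨1, 1, 1, -4, -5⟩) (M := 118) (k := 1)
    (by decide +kernel) (by decide +kernel) (by decide +kernel) (by decide +kernel)
    (by decide +kernel)
  refine ⟨g, hg, ?_, ?_⟩
  · rw [h 3 Nat.prime_three (by decide), show cnt ⟨1, 1, 1, -4, -5⟩ 3 = 1 by decide +kernel]
    norm_num
  · rw [h 5 Nat.prime_five (by decide), show cnt ⟨1, 1, 1, -4, -5⟩ 5 = 7 by decide +kernel]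
    norm_num

/-- the newform of the curve `118c` -/
theorem newform118c : ∃ g : CuspForm (Gamma0 118) 2, g.IsNewform ∧
    qCoeff ⇑g 3 = -1 ∧ qCoeff ⇑g 5 = 1 := by
  obtain ⟨g, hg, h⟩ := exists_newform_of_curve (W := ⟨1, 1, 1, -25, 39⟩) (M := 118) (k := 10)
    (by decide +kernel) (by decide +kernel) (by decide +kernel) (by decide +kernel)
    (by decide +kernel)
  refine ⟨g, hg, ?_, ?_⟩
  · rw [h 3 Nat.prime_three (by decide), show cnt ⟨1, 1, 1, -25, 39⟩ 3 = 4 by decide +kernel]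
    norm_num
  · rw [h 5 Nat.prime_five (by decide), show cnt ⟨1, 1, 1, -25, 39⟩ 5 = 4 by decide +kernel]
    norm_num

/-- the newform of the curve `118d` -/
theorem newform118d : ∃ g : CuspForm (Gamma0 118) 2, g.IsNewform ∧
    qCoeff ⇑g 3 = 2 ∧ qCoeff ⇑g 5 = 2 := by
  obtain ⟨g, hg, h⟩ := exists_newform_of_curve (W := ⟨1, 1, 0, 56, -192⟩) (M := 118) (k := 19)
    (by decide +kernel) (by decide +kernel) (by decide +kernel) (by decide +kernel)
    (by decide +kernel)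
  refine ⟨g, hg, ?_, ?_⟩
  · rw [h 3 Nat.prime_three (by decide), show cnt ⟨1, 1, 0, 56, -192⟩ 3 = 1 by decide +kernel]
    norm_num
  · rw [h 5 Nat.prime_five (by decide), show cnt ⟨1, 1, 0, 56, -192⟩ 5 = 3 by decide +kernel]
    norm_num

end Fermat.Agent.Cor.K4S
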