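import Fermat.Agent.Corollaries.K4S.Curves
import Fermat.Agent.Oldforms.Vq

/-!
# Corollaries, K4S: the third coefficient of the eigenforms of level 11, 14, 17, 19, 22, 26, 34, 38

The forms of the elliptic curves of `Curves.lean`, with `g(z)` and `g(2 z)` for `g` of half the level, are
a basis of the space of forms (dimension from S20), hence the eigenvalues of `T_3` are those of the basis.
-/

set_option autoImplicit false

open CuspForm ModularFormClass CongruenceSubgroup
open FermatAgent.HeckeEigen Fermat.Agent.Oldforms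

namespace Fermat.Agent.Cor.K4S

/-- An operator with a basis of eigenvectors has no other eigenvalue. -/
theorem eigenvalue_mem {V : Type*} [AddCommGroup V] [Module ℂ V] {T : Module.End ℂ V} {n : ℕ}
    {v : Fin n → V} {c : Fin n → ℂ} (hv : ∀ i, T (v i) = c i • v i) (hli : LinearIndependent ℂ v)
    (hn : Module.finrank ℂ V = n) (hn0 : n ≠ 0) {f : V} (hf : f ≠ 0) {x : ℂ} (hT : T f = x • f) :
    ∃ i, x = c i := by
  have : Nonempty (Fin n) := ⟨⟨0, Nat.pos_of_ne_zero hn0⟩⟩
  let b := basisOfLinearIndependentOfCardEqFinrank hli (by rw [Fintype.card_fin, hn])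
  have hb : ∀ i, b i = v i := fun i => by
    simp [b]
  have h1 : ∃ i, b.repr f i ≠ 0 := by
    by_contra h
    push Not at h
    apply hf
    rw [← b.sum_repr f]
    exact Finset.sum_eq_zero fun i _ => by rw [h i, zero_smul]
  obtain ⟨i, hi⟩ := h1
  refine ⟨i, ?_⟩
  have h2 : T f = ∑ j, (b.repr f j * c j) • b j := by
    conv_lhs => rw [← b.sum_repr f]
    rw [map_sum]
    refine Finset.sum_congr rfl fun j _ => ?_
    rw [map_smul, hb, hv, smul_smul]
  have h3 := congrArg (fun y => b.repr y i) h2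
  simp only [hT, map_smul, Finsupp.smul_apply, smul_eq_mul, map_sum, b.repr_self,
    Finsupp.coe_finsetSum, Finset.sum_apply, Finsupp.smul_single, mul_one,
    Finsupp.single_apply, Finset.sum_ite_eq', Finset.mem_univ, if_true] at h3
  have h4 : (x - c i) * b.repr f i = 0 := by linear_combination h3
  exact sub_eq_zero.mp ((mul_eq_zero.mp h4).resolve_right hi)

/-- the prime `3` -/
abbrev P3 : Nat.Primes := ⟨3, Nat.prime_three⟩

variable {M : ℕ} [NeZero M]

theorem hecke3 {f : CuspForm (Gamma0 M) 2} (hf : f.IsNormalizedEigenform) :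
    heckeOp M 2 P3 f = qCoeff ⇑f 3 • f :=
  heckeOp_eq_of_isNormalizedEigenform hf P3

/-- the third coefficient is one of the eigenvalues of a basis -/
theorem coeff_three_mem {n : ℕ} {v : Fin n → CuspForm (Gamma0 M) 2} {c : Fin n → ℂ}
    (hv : ∀ i, heckeOp M 2 P3 (v i) = c i • v i) (hli : LinearIndependent ℂ v)
    (hn : genus12 M = 12 * n) (hn0 : n ≠ 0) {f : CuspForm (Gamma0 M) 2}
    (hf : f.IsNormalizedEigenform) : ∃ i, qCoeff ⇑f 3 = c i :=
  eigenvalue_mem hv hli ((finrank_eq_iff M n).mpr hn) hn0 hf.ne_zero (hecke3 hf)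

theorem coeff_three_one {g f : CuspForm (Gamma0 M) 2} (hg : g.IsNormalizedEigenform)
    (hn : genus12 M = 12) (hf : f.IsNormalizedEigenform) : qCoeff ⇑f 3 = qCoeff ⇑g 3 := by
  obtain ⟨i, hi⟩ := coeff_three_mem (n := 1) (v := ![g]) (c := ![qCoeff ⇑g 3])
    (fun i => by fin_cases i; exact hecke3 hg)
    (LinearIndependent.of_subsingleton 0 hg.ne_zero) (by rw [hn]; norm_num) one_ne_zero hf
  fin_cases i
  exact hi

theorem coeff_three_11 {f : CuspForm (Gamma0 11) 2} (hf : f.IsNormalizedEigenform) :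
    qCoeff ⇑f 3 = -1 := by
  obtain ⟨g, hg, h3, -⟩ := form11
  rw [coeff_three_one hg (by decide +kernel) hf, h3]

theorem coeff_three_14 {f : CuspForm (Gamma0 14) 2} (hf : f.IsNormalizedEigenform) :
    qCoeff ⇑f 3 = -2 := by
  obtain ⟨g, hg, h3, -⟩ := form14
  rw [coeff_three_one hg (by decide +kernel) hf, h3]

theorem coeff_three_17 {f : CuspForm (Gamma0 17) 2} (hf : f.IsNormalizedEigenform) :
    qCoeff ⇑f 3 = 0 := by
  obtain ⟨g, hg, h3, -⟩ := form17
  rw [coeff_three_one hg (by decide +kernel) hf, h3]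

theorem coeff_three_19 {f : CuspForm (Gamma0 19) 2} (hf : f.IsNormalizedEigenform) :
    qCoeff ⇑f 3 = -2 := by
  obtain ⟨g, hg, h3, -⟩ := form19
  rw [coeff_three_one hg (by decide +kernel) hf, h3]

/-! ### Several forms -/

theorem coeff_three_26 {f : CuspForm (Gamma0 26) 2} (hf : f.IsNormalizedEigenform) :
    qCoeff ⇑f 3 = 1 ∨ qCoeff ⇑f 3 = -3 := by
  obtain ⟨a, ha, ha3, -⟩ := form26a
  obtain ⟨b, hb, hb3, -⟩ := form26b
  obtain ⟨i, hi⟩ := coeff_three_mem (n := 2) (v := ![a, b]) (c := ![1, -3])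
    (fun i => by
      fin_cases i
      · exact (hecke3 ha).trans (by rw [ha3]; rfl)
      · exact (hecke3 hb).trans (by rw [hb3]; rfl))
    (by
      rw [LinearIndependent.pair_iff]
      intro s t h
      have h1 := congrArg (fun F : CuspForm (Gamma0 26) 2 => qCoeff ⇑F 1) h
      have h3 := congrArg (fun F : CuspForm (Gamma0 26) 2 => qCoeff ⇑F 3) h
      simp only [qCoeff_add, qCoeff_smul, ha.qCoeff_one, hb.qCoeff_one, ha3, hb3,
        qCoeff_zero] at h1 h3
      exact ⟨by linear_combination (3 * h1 + h3) / 4, by linear_combination (h1 - h3) / 4⟩)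
    (by decide +kernel) two_ne_zero hf
  fin_cases i
  · exact Or.inl hi
  · exact Or.inr hi

/-- the form `g(z)` of level `2 L` -/
theorem hecke3_restr {L : ℕ} [NeZero L] (hM : M = 2 * L) {g : CuspForm (Gamma0 L) 2}
    (hg : g.IsNormalizedEigenform) (h : L ∣ M) :
    heckeOp M 2 P3 (restr M h 2 g) = qCoeff ⇑g 3 • restr M h 2 g := by
  rw [heckeOp_restr h P3, hecke3 hg, map_smul]
  intro h3
  rw [hM] at h3
  exact (Nat.Coprime.dvd_of_dvd_mul_left (by decide : Nat.Coprime 3 2) h3)

/-- the form `g(2 z)` of level `2 L` -/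
theorem hecke3_V {L : ℕ} [NeZero L] (hM : M = 2 * L) {g : CuspForm (Gamma0 L) 2}
    (hg : g.IsNormalizedEigenform) :
    heckeOp M 2 P3 (V 2 two_ne_zero hM g) = qCoeff ⇑g 3 • V 2 two_ne_zero hM g := by
  have h := heckeOp_V 2 Nat.prime_two hM P3 (by decide) g
  rw [hecke3 hg, map_smul] at h
  exact h

theorem coeff_three_22 {f : CuspForm (Gamma0 22) 2} (hf : f.IsNormalizedEigenform) :
    qCoeff ⇑f 3 = -1 := by
  obtain ⟨g, hg, hg3, -⟩ := form11
  have hd : 11 ∣ 22 := by decide
  have hM : 22 = 2 * 11 := rfl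
  obtain ⟨i, hi⟩ := coeff_three_mem (n := 2) (v := ![restr 22 hd 2 g, V 2 two_ne_zero hM g])
    (c := ![-1, -1])
    (fun i => by
      fin_cases i
      · exact (hecke3_restr hM hg hd).trans (by rw [hg3]; rfl)
      · exact (hecke3_V hM hg).trans (by rw [hg3]; rfl))
    (by
      rw [LinearIndependent.pair_iff]
      intro s t h
      have h1 := congrArg (fun F : CuspForm (Gamma0 22) 2 => qCoeff ⇑F 1) h
      have h2 := congrArg (fun F : CuspForm (Gamma0 22) 2 => qCoeff ⇑F 2) h
      simp only [qCoeff_add, qCoeff_smul, coe_restr, qCoeff_V, hg.qCoeff_one, qCoeff_zero] at h1 h2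
      norm_num [hg.qCoeff_one] at h1 h2
      refine ⟨h1, ?_⟩
      rw [h1] at h2
      linear_combination h2)
    (by decide +kernel) two_ne_zero hf
  fin_cases i
  · exact hi
  · exact hi

theorem coeff_three_34 {f : CuspForm (Gamma0 34) 2} (hf : f.IsNormalizedEigenform) :
    qCoeff ⇑f 3 = 0 ∨ qCoeff ⇑f 3 = -2 := by
  obtain ⟨g, hg, hg3, -⟩ := form17
  obtain ⟨a, ha, ha3, -⟩ := form34
  have hd : 17 ∣ 34 := by decide
  have hM : 34 = 2 * 17 := rfl
  obtain ⟨i, hi⟩ := coeff_three_mem (n := 3) (v := ![restr 34 hd 2 g, V 2 two_ne_zero hM g, a])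
    (c := ![0, 0, -2])
    (fun i => by
      fin_cases i
      · exact (hecke3_restr hM hg hd).trans (by rw [hg3]; rfl)
      · exact (hecke3_V hM hg).trans (by rw [hg3]; rfl)
      · exact (hecke3 ha).trans (by rw [ha3]; rfl))
    (by
      rw [Fintype.linearIndependent_iff]
      intro c h
      rw [Fin.sum_univ_three] at h
      have h1 := congrArg (fun F : CuspForm (Gamma0 34) 2 => qCoeff ⇑F 1) h
      have h2 := congrArg (fun F : CuspForm (Gamma0 34) 2 => qCoeff ⇑F 2) h
      have h3 := congrArg (fun F : CuspForm (Gamma0 34) 2 => qCoeff ⇑F 3) h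
      simp only [Matrix.cons_val_zero, Matrix.cons_val_one, Matrix.cons_val, qCoeff_add,
        qCoeff_smul, coe_restr, qCoeff_V, hg.qCoeff_one, ha.qCoeff_one, hg3, ha3,
        qCoeff_zero] at h1 h2 h3
      norm_num [hg.qCoeff_one] at h1 h2 h3
      have e0 : c 0 = 0 := by linear_combination h1 - h3
      rw [e0, h3] at h2
      intro i
      fin_cases i
      · exact e0
      · simpa using h2
      · exact h3)
    (by decide +kernel) three_ne_zero hf
  fin_cases i
  · exact Or.inl hi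
  · exact Or.inl hi
  · exact Or.inr hi

theorem coeff_three_38 {f : CuspForm (Gamma0 38) 2} (hf : f.IsNormalizedEigenform) :
    qCoeff ⇑f 3 = -2 ∨ qCoeff ⇑f 3 = 1 ∨ qCoeff ⇑f 3 = -1 := by
  obtain ⟨g, hg, hg3, hg5⟩ := form19
  obtain ⟨a, ha, ha3, ha5⟩ := form38a
  obtain ⟨b, hb, hb3, hb5⟩ := form38b
  have hd : 19 ∣ 38 := by decide
  have hM : 38 = 2 * 19 := rfl
  obtain ⟨i, hi⟩ := coeff_three_mem (n := 4)
    (v := ![restr 38 hd 2 g, V 2 two_ne_zero hM g, a, b]) (c := ![-2, -2, 1, -1])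
    (fun i => by
      fin_cases i
      · exact (hecke3_restr hM hg hd).trans (by rw [hg3]; rfl)
      · exact (hecke3_V hM hg).trans (by rw [hg3]; rfl)
      · exact (hecke3 ha).trans (by rw [ha3]; rfl)
      · exact (hecke3 hb).trans (by rw [hb3]; rfl))
    (by
      rw [Fintype.linearIndependent_iff]
      intro c h
      rw [Fin.sum_univ_four] at h
      have h1 := congrArg (fun F : CuspForm (Gamma0 38) 2 => qCoeff ⇑F 1) h
      have h2 := congrArg (fun F : CuspForm (Gamma0 38) 2 => qCoeff ⇑F 2) h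
      have h3 := congrArg (fun F : CuspForm (Gamma0 38) 2 => qCoeff ⇑F 3) h
      have h5 := congrArg (fun F : CuspForm (Gamma0 38) 2 => qCoeff ⇑F 5) h
      simp only [Matrix.cons_val_zero, Matrix.cons_val_one, Matrix.cons_val, qCoeff_add,
        qCoeff_smul, coe_restr, qCoeff_V, hg.qCoeff_one, ha.qCoeff_one, hb.qCoeff_one, hg3, ha3,
        hb3, hg5, ha5, hb5, qCoeff_zero] at h1 h2 h3 h5
      norm_num [hg.qCoeff_one] at h1 h2 h3 h5
      have e0 : c 0 = 0 := by linear_combination (4 / 9) * (h1 - (h1 + h3) / 2 + h5 / 4)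
      have e3 : c 3 = 0 := by linear_combination (3 * e0 - h5) / 4
      have e2 : c 2 = 0 := by linear_combination h1 - e0 - e3
      rw [e0, e2, e3] at h2
      intro i
      fin_cases i
      · exact e0
      · simpa using h2
      · exact e2
      · exact e3)
    (by decide +kernel) four_ne_zero hf
  fin_cases i
  · exact Or.inl hi
  · exact Or.inl hi
  · exact Or.inr (Or.inl hi)
  · exact Or.inr (Or.inr hi)

/-- **The third coefficient of the eigenforms of level `11, 14, 19, 22, 26, 38`** is a non-zero integer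
of absolute value at most `3`. -/
theorem exists_coeff_three (h : M ∈ ({11, 14, 19, 22, 26, 38} : Finset ℕ))
    {f : CuspForm (Gamma0 M) 2} (hf : f.IsNormalizedEigenform) :
    ∃ c : ℤ, qCoeff ⇑f 3 = c ∧ c ≠ 0 ∧ |c| ≤ 3 := by
  simp only [Finset.mem_insert, Finset.mem_singleton] at h
  rcases h with rfl | rfl | rfl | rfl | rfl | rfl
  · exact ⟨-1, by rw [coeff_three_11 hf]; norm_num, by decide, by decide⟩
  · exact ⟨-2, by rw [coeff_three_14 hf]; norm_num, by decide, by decide⟩
  · exact ⟨-2, by rw [coeff_three_19 hf]; norm_num, by decide, by decide⟩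
  · exact ⟨-1, by rw [coeff_three_22 hf]; norm_num, by decide, by decide⟩
  · rcases coeff_three_26 hf with h | h
    · exact ⟨1, by rw [h]; norm_num, by decide, by decide⟩
    · exact ⟨-3, by rw [h]; norm_num, by decide, by decide⟩
  · rcases coeff_three_38 hf with h | h | h
    · exact ⟨-2, by rw [h]; norm_num, by decide, by decide⟩
    · exact ⟨1, by rw [h]; norm_num, by decide, by decide⟩
    · exact ⟨-1, by rw [h]; norm_num, by decide, by decide⟩

/-- A maximal ideal over `p` contains no integer prime to `p`. -/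
theorem false_of_intCast_mem {p : ℕ} (hp : p.Prime) {R : Type*} [CommRing R] {𝔪 : Ideal R}
    (hm : 𝔪.IsMaximal) (hpm : (p : R) ∈ 𝔪) {n : ℤ} (hn0 : n ≠ 0) (hn : |n| < p)
    (h : (n : R) ∈ 𝔪) : False := by
  have hcop : IsCoprime (p : ℤ) n := by
    refine ((Nat.prime_iff_prime_int.mp hp).coprime_iff_not_dvd).mpr fun hd => ?_
    have h1 := Int.le_of_dvd (abs_pos.mpr hn0) ((dvd_abs _ _).mpr hd)
    omega
  obtain ⟨u, v, huv⟩ := hcop
  apply hm.ne_top
  rw [Ideal.eq_top_iff_one]
  have h1 : (1 : R) = (u : R) * (p : R) + (v : R) * (n : R) := by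
    exact_mod_cast congrArg (fun z : ℤ => (z : R)) huv.symm
  rw [h1]
  exact 𝔪.add_mem (𝔪.mul_mem_left _ hpm) (𝔪.mul_mem_left _ h)

/-- **No congruence at `3`**: for `p ≥ 11` the third coefficient of an eigenform of level
`11, 14, 19, 22, 26, 38` is not congruent to `0` or `± 4` modulo `p`. -/
theorem false_of_coeff_three {p : ℕ} (hp : p.Prime) (h11 : 11 ≤ p)
    (hM : M ∈ ({11, 14, 19, 22, 26, 38} : Finset ℕ)) {f : CuspForm (Gamma0 M) 2}
    (hf : f.IsNormalizedEigenform) {𝔪 : Ideal (integralClosure ℤ ℂ)} (hm : 𝔪.IsMaximal)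
    (hpm : (p : integralClosure ℤ ℂ) ∈ 𝔪) {a : integralClosure ℤ ℂ} (ha : (a : ℂ) = qCoeff ⇑f 3)
    (h : a ∈ 𝔪 ∨ a - 4 ∈ 𝔪 ∨ a + 4 ∈ 𝔪) : False := by
  obtain ⟨c, hc, hc0, hc3⟩ := exists_coeff_three hM hf
  have hac : a = (c : integralClosure ℤ ℂ) := Subtype.ext (by rw [ha, hc]; simp)
  rw [abs_le] at hc3
  rcases h with h | h | h
  · exact false_of_intCast_mem hp hm hpm hc0 (by rw [abs_lt]; omega) (hac ▸ h)
  · refine false_of_intCast_mem hp hm hpm (n := c - 4) (by omega) (by rw [abs_lt]; omega) ?_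
    rw [hac] at h
    exact_mod_cast h
  · refine false_of_intCast_mem hp hm hpm (n := c + 4) (by omega) (by rw [abs_lt]; omega) ?_
    rw [hac] at h
    exact_mod_cast h

end Fermat.Agent.Cor.K4S
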