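import Mathlib

/-!
# The table of exclusions

If an eigenvalue `a₃ = v ∈ ℤ` of a newform is congruent to `0` or `±4` modulo a maximal ideal of
the ring of algebraic integers above `p` then `p` divides `v (v - 4) (v + 4)`.
-/

set_option autoImplicit false

namespace Fermat.Agent.Cor.K4S

/-- a rational integer in a proper ideal of the algebraic integers which contains the prime `p`
is divisible by `p` -/
theorem dvd_of_cast_mem {𝔪 : Ideal (integralClosure ℤ ℂ)} (h𝔪 : 𝔪 ≠ ⊤) {p : ℕ} (hp : p.Prime)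
    (hp𝔪 : (p : integralClosure ℤ ℂ) ∈ 𝔪) {v : ℤ} (hv : (v : integralClosure ℤ ℂ) ∈ 𝔪) :
    (p : ℤ) ∣ v := by
  by_contra h
  refine h𝔪 ((Ideal.eq_top_iff_one 𝔪).mpr ?_)
  obtain ⟨x, y, hxy⟩ := (Int.prime_iff_natAbs_prime.mpr (by simpa using hp) :
    Prime (p : ℤ)).irreducible.coprime_iff_not_dvd.mpr h
  have h1 : (x : integralClosure ℤ ℂ) * p + (y : integralClosure ℤ ℂ) * v = 1 := by
    have := congrArg (Int.cast : ℤ → integralClosure ℤ ℂ) hxy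
    push_cast at this
    exact this
  rw [← h1]
  exact 𝔪.add_mem (𝔪.mul_mem_left _ hp𝔪) (𝔪.mul_mem_left _ hv)

/-- **exclusion**: `a₃ = v` and `a₃ ≡ 0, ±4 mod 𝔪` imply `p ∣ v (v - 4) (v + 4)` -/
theorem dvd_of_mem {𝔪 : Ideal (integralClosure ℤ ℂ)} (h𝔪 : 𝔪.IsMaximal) {p : ℕ} (hp : p.Prime)
    (hp𝔪 : (p : integralClosure ℤ ℂ) ∈ 𝔪) {v : ℤ} {a : integralClosure ℤ ℂ} (ha : (a : ℂ) = v)
    (h : a ∈ 𝔪 ∨ a - 4 ∈ 𝔪 ∨ a + 4 ∈ 𝔪) : (p : ℤ) ∣ v * (v - 4) * (v + 4) := by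
  have hav : a = (v : integralClosure ℤ ℂ) := by
    apply Subtype.ext
    rw [ha]
    simp
  subst hav
  rcases h with h | h | h
  · exact ((dvd_of_cast_mem h𝔪.ne_top hp hp𝔪 h).mul_right _).mul_right _
  · have h1 : ((v - 4 : ℤ) : integralClosure ℤ ℂ) ∈ 𝔪 := by push_cast; exact h
    exact ((dvd_of_cast_mem h𝔪.ne_top hp hp𝔪 h1).mul_left _).mul_right _
  · have h1 : ((v + 4 : ℤ) : integralClosure ℤ ℂ) ∈ 𝔪 := by push_cast; exact h
    exact (dvd_of_cast_mem h𝔪.ne_top hp hp𝔪 h1).mul_left _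

section
variable {𝔪 : Ideal (integralClosure ℤ ℂ)} (h𝔪 : 𝔪.IsMaximal) {p : ℕ} (hp : p.Prime)
  (hp𝔪 : (p : integralClosure ℤ ℂ) ∈ 𝔪) {a : integralClosure ℤ ℂ}
  (h : a ∈ 𝔪 ∨ a - 4 ∈ 𝔪 ∨ a + 4 ∈ 𝔪)
include h𝔪 hp hp𝔪 h

/-- `a₃ = -2` (levels 14, 19, 34, 38) is impossible for `p ≥ 5` -/
theorem false_of_neg_two (h5 : 5 ≤ p) (ha : (a : ℂ) = -2) : False := by
  have h1 := dvd_of_mem (v := -2) h𝔪 hp hp𝔪 (by rw [ha]; norm_num) h
  have h2 : p ∣ 2 ^ 3 * 3 := by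
    rw [← Int.natCast_dvd_natCast]
    exact h1.trans (by norm_num)
  rcases (hp.dvd_mul).mp h2 with h3 | h3
  · have := Nat.le_of_dvd (by norm_num) (hp.dvd_of_dvd_pow h3)
    omega
  · have := Nat.le_of_dvd (by norm_num) h3
    omega

/-- `a₃ = -1` (levels 11, 22, 38) is impossible for `p ≥ 7` -/
theorem false_of_neg_one (h7 : 7 ≤ p) (ha : (a : ℂ) = -1) : False := by
  have h1 := dvd_of_mem (v := -1) h𝔪 hp hp𝔪 (by rw [ha]; norm_num) h
  have h2 : p ∣ 3 * 5 := by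
    rw [← Int.natCast_dvd_natCast]
    exact h1.trans (by norm_num)
  rcases (hp.dvd_mul).mp h2 with h3 | h3 <;>
  · have := Nat.le_of_dvd (by norm_num) h3
    omega

/-- `a₃ = 1` (levels 26, 38) is impossible for `p ≥ 7` -/
theorem false_of_one (h7 : 7 ≤ p) (ha : (a : ℂ) = 1) : False := by
  have h1 := dvd_of_mem (v := 1) h𝔪 hp hp𝔪 (by rw [ha]; norm_num) h
  have h2 : p ∣ 3 * 5 := by
    rw [← Int.natCast_dvd_natCast]
    exact h1.trans (by norm_num)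
  rcases (hp.dvd_mul).mp h2 with h3 | h3 <;>
  · have := Nat.le_of_dvd (by norm_num) h3
    omega

/-- `a₃ = -3` (level 26) is impossible for `p ≥ 11` -/
theorem false_of_neg_three (h11 : 11 ≤ p) (ha : (a : ℂ) = -3) : False := by
  have h1 := dvd_of_mem (v := -3) h𝔪 hp hp𝔪 (by rw [ha]; norm_num) h
  have h2 : p ∣ 3 * 7 := by
    rw [← Int.natCast_dvd_natCast]
    exact h1.trans (by norm_num)
  rcases (hp.dvd_mul).mp h2 with h3 | h3 <;>
  · have := Nat.le_of_dvd (by norm_num) h3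
    omega

end

end Fermat.Agent.Cor.K4S
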