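import Fermat.Agent.Corollaries.K4S.FreyThree
import Fermat.Agent.Corollaries.K4S.Span
import Fermat.Agent.Corollaries.K4S.Tab
import Fermat.Agent.Corollaries.K4.Main
import Fermat.Agent.Corollaries.K4.Equations
import Fermat.Agent.Corollaries.LevelLower

/-!
# Levels which are not levels of Frey triples

For the levels `M` of genus zero there is no form at all; for `M = 11, 14, 19, 22, 26, 38` the third
coefficient of the forms of level `M` is different from `0` and `± 4` modulo `p`, so the level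
`freyLevel p (A B C)` of a Frey triple is never one of these.
-/

set_option autoImplicit false

open CongruenceSubgroup

namespace Fermat.Agent.Cor

open ModularFormClass WeierstrassCurve

/-- The Frey curves are residually modular at `p` of level `freyLevel p (A B C)`. -/
def FreyMod (p : ℕ) : Prop :=
  ∀ A B C : ℤ, FreyTriple A B C →
    (fA A B).IsResiduallyModularOfLevel p (freyLevel p (A * B * C))

/-- The representation on the `p`-torsion of every Frey curve is irreducible. -/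
def FreyIrr (p : ℕ) : Prop :=
  ∀ A B C : ℤ, FreyTriple A B C → (fA A B).ModRepIsIrreducible p

/-- There are no coprime non-zero `A + B + C = 0` with `16 ∣ A B C` of level `M`. -/
def NoTriple (p M : ℕ) : Prop :=
  ∀ A B C : ℤ, A ≠ 0 → B ≠ 0 → C ≠ 0 → A + B + C = 0 → IsCoprime A B → (16 : ℤ) ∣ A * B * C →
    freyLevel p (A * B * C) ≠ M

variable {p : ℕ}

theorem freyMod_of_irr (hp : p.Prime) (hp2 : p ≠ 2) (h : FreyIrr p) : FreyMod p := by
  intro A B C h'
  have h1 := resMod_serre h'.Δ_ne_zero h'.isSemistableModel hp hp2 (h A B C h')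
  rwa [serreLevel, h'.level hp hp2] at h1

/-- only the normalised triples matter -/
theorem noTriple_of {M : ℕ} (h : ∀ A B C : ℤ, FreyTriple A B C → freyLevel p (A * B * C) ≠ M) :
    NoTriple p M := by
  intro A B C hA hB hC hs hc h16
  obtain ⟨A', B', C', h', he⟩ := exists_freyTriple hs hc hA hB hC h16
  have e : freyLevel p (A' * B' * C') = freyLevel p (A * B * C) := by
    rcases he with he | he
    · rw [he]
    · rw [he, freyLevel_neg]
  rw [← e]
  exact h A' B' C' h'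

theorem noTriple_of_noForm (hSF : SerreFrey p) {M : ℕ} (hM : NoForm M) : NoTriple p M := by
  intro A B C hA hB hC hs hc h16 he
  obtain ⟨f, hf⟩ := hSF A B C hA hB hC hs hc h16
  rw [he] at f
  subst he
  obtain ⟨f, hf⟩ := hSF A B C hA hB hC hs hc h16
  exact hf (hM f)

/-- **Exclusion by the third coefficient.** -/
theorem noTriple_of_coeff (hp : p.Prime) (h5 : 5 ≤ p) (hFM : FreyMod p) {M : ℕ} (hM : M ≠ 0)
    (h3 : ¬ 3 ∣ M)
    (hex : ∀ f : CuspForm (Gamma0 M) 2, f.IsNormalizedEigenform →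
      ∃ v : ℤ, qCoeff f 3 = (v : ℂ) ∧ ¬ (p : ℤ) ∣ v * (v - 4) * (v + 4)) : NoTriple p M := by
  refine noTriple_of fun A B C h he => ?_
  have hres := hFM A B C h
  rw [he] at hres
  obtain ⟨f, hf, 𝔪, h𝔪, hp𝔪, a, ha, ha'⟩ := coeff_three_of_frey h hp h5 hM h3 hres
  obtain ⟨v, hv, hv'⟩ := hex f hf
  exact hv' (K4S.dvd_of_mem h𝔪 hp hp𝔪 (ha.trans hv) ha')

theorem not_dvd_of_lt {n : ℤ} {m : ℕ} (hp : p.Prime) (hm : n.natAbs = m) (h0 : m ≠ 0)
    (hn : ∀ q ∈ m.primeFactors, q ≠ p) : ¬ (p : ℤ) ∣ n := by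
  intro h
  have h1 : p ∣ n.natAbs := Int.natCast_dvd.mp h
  rw [hm] at h1
  exact hn p (Nat.mem_primeFactors.mpr ⟨hp, h1, h0⟩) rfl

theorem not_dvd_of_small {n : ℤ} {m : ℕ} (hp : p.Prime) (B : ℕ) (hpB : B < p)
    (hm : n.natAbs ∣ m) (hn : ∀ q : ℕ, q.Prime → q ∣ m → q ≤ B) : ¬ (p : ℤ) ∣ n := fun h =>
  absurd (hn p hp ((Int.natCast_dvd.mp h).trans hm)) (by omega)

/-- the values `-2`, `-1`, `1` and `-3` -/
theorem not_dvd_neg_two (hp : p.Prime) (h5 : 5 ≤ p) :
    ¬ (p : ℤ) ∣ (-2) * ((-2) - 4) * ((-2) + 4) := by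
  refine not_dvd_of_small hp 3 (by omega) (m := 2 ^ 3 * 3) (by norm_num) ?_
  intro q hq h
  rcases (hq.dvd_mul).mp h with h1 | h1
  · exact (Nat.le_of_dvd (by norm_num) (hq.dvd_of_dvd_pow h1)).trans (by norm_num)
  · exact Nat.le_of_dvd (by norm_num) h1

theorem not_dvd_neg_one (hp : p.Prime) (h7 : 7 ≤ p) :
    ¬ (p : ℤ) ∣ (-1) * ((-1) - 4) * ((-1) + 4) := by
  refine not_dvd_of_small hp 5 (by omega) (m := 3 * 5) (by norm_num) ?_
  intro q hq h
  rcases (hq.dvd_mul).mp h with h1 | h1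
  · exact (Nat.le_of_dvd (by norm_num) h1).trans (by norm_num)
  · exact Nat.le_of_dvd (by norm_num) h1

theorem not_dvd_one (hp : p.Prime) (h7 : 7 ≤ p) : ¬ (p : ℤ) ∣ 1 * (1 - 4) * (1 + 4) := by
  refine not_dvd_of_small hp 5 (by omega) (m := 3 * 5) (by norm_num) ?_
  intro q hq h
  rcases (hq.dvd_mul).mp h with h1 | h1
  · exact (Nat.le_of_dvd (by norm_num) h1).trans (by norm_num)
  · exact Nat.le_of_dvd (by norm_num) h1

theorem not_dvd_neg_three (hp : p.Prime) (h11 : 11 ≤ p) :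
    ¬ (p : ℤ) ∣ (-3) * ((-3) - 4) * ((-3) + 4) := by
  refine not_dvd_of_small hp 7 (by omega) (m := 3 * 7) (by norm_num) ?_
  intro q hq h
  rcases (hq.dvd_mul).mp h with h1 | h1
  · exact (Nat.le_of_dvd (by norm_num) h1).trans (by norm_num)
  · exact Nat.le_of_dvd (by norm_num) h1

theorem noTriple_14 (hp : p.Prime) (h5 : 5 ≤ p) (hFM : FreyMod p) : NoTriple p 14 :=
  noTriple_of_coeff hp h5 hFM (by norm_num) (by norm_num) fun f hf =>
    ⟨-2, by rw [K4S.coeff_three_14 hf]; norm_num, not_dvd_neg_two hp h5⟩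

theorem noTriple_11 (hp : p.Prime) (h7 : 7 ≤ p) (hFM : FreyMod p) : NoTriple p 11 :=
  noTriple_of_coeff hp (by omega) hFM (by norm_num) (by norm_num) fun f hf =>
    ⟨-1, by rw [K4S.coeff_three_11 hf]; norm_num, not_dvd_neg_one hp h7⟩

theorem noTriple_22 (hp : p.Prime) (h7 : 7 ≤ p) (hFM : FreyMod p) : NoTriple p 22 :=
  noTriple_of_coeff hp (by omega) hFM (by norm_num) (by norm_num) fun f hf =>
    ⟨-1, by rw [K4S.coeff_three_22 hf]; norm_num, not_dvd_neg_one hp h7⟩

theorem noTriple_19 (hp : p.Prime) (h5 : 5 ≤ p) (hFM : FreyMod p) : NoTriple p 19 :=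
  noTriple_of_coeff hp h5 hFM (by norm_num) (by norm_num) fun f hf =>
    ⟨-2, by rw [K4S.coeff_three_19 hf]; norm_num, not_dvd_neg_two hp h5⟩

theorem noTriple_38 (hp : p.Prime) (h7 : 7 ≤ p) (hFM : FreyMod p) : NoTriple p 38 :=
  noTriple_of_coeff hp (by omega) hFM (by norm_num) (by norm_num) fun f hf => by
    rcases K4S.coeff_three_38 hf with h | h | h
    · exact ⟨-2, by rw [h]; norm_num, not_dvd_neg_two hp (by omega)⟩
    · exact ⟨1, by rw [h]; norm_num, not_dvd_one hp h7⟩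
    · exact ⟨-1, by rw [h]; norm_num, not_dvd_neg_one hp h7⟩

theorem noTriple_26 (hp : p.Prime) (h11 : 11 ≤ p) (hFM : FreyMod p) : NoTriple p 26 :=
  noTriple_of_coeff hp (by omega) hFM (by norm_num) (by norm_num) fun f hf => by
    rcases K4S.coeff_three_26 hf with h | h
    · exact ⟨1, by rw [h]; norm_num, not_dvd_one hp (by omega)⟩
    · exact ⟨-3, by rw [h]; norm_num, not_dvd_neg_three hp h11⟩

end Fermat.Agent.Cor
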