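import Fermat.Agent.Corollaries.K4.Dioph
import Fermat.Agent.Corollaries.K4S.NoFrey

/-!
# Equations from the exclusion of levels

The theorems of `K4/Dioph.lean` with "there is no form of level `M`" replaced by the weaker
`NoTriple p M`.
-/

set_option autoImplicit false

namespace Fermat.Agent.Cor

variable {p : ℕ}

/-- **The general statement.** -/
theorem contradiction_of_noTriple {L : ℕ} {A B C A' B' C' g : ℤ} (P : Prim A B C A' B' C' g)
    (hq : ∀ q : ℕ, q.Prime → q ≠ 2 → q ≠ L →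
      p ∣ padicValInt q A ∧ p ∣ padicValInt q B ∧ p ∣ padicValInt q C)
    (h4 : 4 ≤ padicValInt 2 (A' * B' * C'))
    (h1 : p ∣ padicValInt 2 (A' * B' * C') - 4 → NoTriple p 1 ∧ NoTriple p L)
    (h2 : ¬ p ∣ padicValInt 2 (A' * B' * C') - 4 → NoTriple p 2 ∧ NoTriple p (L * 2)) : False := by
  have hodd := freyLevel_odd (p := p) (L := L) (n := A' * B' * C') (by
    intro q hqp h2 hL'
    obtain ⟨a, b, c⟩ := hq q hqp h2 hL'
    rcases P.val hqp with h | ⟨h, -⟩ | ⟨h, -⟩ | ⟨h, -⟩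
    · rw [h]; exact dvd_zero p
    · exact (Nat.dvd_add_left b).mp (h ▸ a)
    · exact (Nat.dvd_add_left a).mp (h ▸ b)
    · exact (Nat.dvd_add_left a).mp (h ▸ c))
  have key : ∀ M : ℕ, NoTriple p M → freyLevel p (A' * B' * C') ≠ M := fun M hM =>
    hM A' B' C' P.a0 P.b0 P.c0 P.sum P.cop (Prim.sixteen_dvd h4)
  by_cases hd : p ∣ padicValInt 2 (A' * B' * C') - 4
  · obtain ⟨n1, nL⟩ := h1 hd
    rcases hodd with h | h
    · exact key 1 n1 (by rw [freyLevel, h, if_pos hd])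
    · exact key L nL (by rw [freyLevel, h, if_pos hd, mul_one])
  · obtain ⟨n2, nL2⟩ := h2 hd
    rcases hodd with h | h
    · exact key 2 n2 (by rw [freyLevel, h, if_neg hd])
    · exact key (L * 2) nL2 (by rw [freyLevel, h, if_neg hd])

/-- **Equations with two-adic condition.** -/
theorem no_solution_of_noTriple {L : ℕ} (n1 : NoTriple p 1) (nL : NoTriple p L)
    (n2 : NoTriple p 2) (nL2 : NoTriple p (L * 2)) {A B C : ℤ} (hA : A ≠ 0) (hB : B ≠ 0)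
    (hC : C ≠ 0)
    (hq : ∀ q : ℕ, q.Prime → q ≠ 2 → q ≠ L →
      p ∣ padicValInt q A ∧ p ∣ padicValInt q B ∧ p ∣ padicValInt q C)
    (h2 : ∀ r : ℕ, r = 1 ∨ r = 2 ∨ r = 3 →
      ¬ (padicValInt 2 A = r + padicValInt 2 B ∧ padicValInt 2 B = padicValInt 2 C) ∧
      ¬ (padicValInt 2 B = r + padicValInt 2 A ∧ padicValInt 2 A = padicValInt 2 C) ∧
      ¬ (padicValInt 2 C = r + padicValInt 2 A ∧ padicValInt 2 A = padicValInt 2 B)) :
    A + B + C ≠ 0 := by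
  intro hsum
  obtain ⟨A', B', C', g, P⟩ := exists_prim hA hB hC hsum
  refine contradiction_of_noTriple P hq ?_ (fun _ => ⟨n1, nL⟩) (fun _ => ⟨n2, nL2⟩)
  have hpos := P.val_two_pos
  by_contra hlt
  have hr : padicValInt 2 (A' * B' * C') = 1 ∨ padicValInt 2 (A' * B' * C') = 2 ∨
      padicValInt 2 (A' * B' * C') = 3 := by omega
  obtain ⟨c1, c2, c3⟩ := h2 _ hr
  rcases P.val Nat.prime_two with h | h | h | h
  · omega
  · exact c1 h
  · exact c2 h
  · exact c3 h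

/-- **Equations with three coefficients** `± 2 ^ k L ^ m`. -/
theorem coeff_of_noTriple {L : ℕ} (hL : L = 1 ∨ L.Prime)
    (hL2 : L % 2 = 1) (n1 : NoTriple p 1) (nL : NoTriple p L) (n2 : NoTriple p 2)
    (nL2 : NoTriple p (L * 2)) {k₁ k₂ k₃ m₁ m₂ m₃ : ℕ}
    (hk : ∀ r : ℕ, r = 1 ∨ r = 2 ∨ r = 3 →
      ¬ (k₁ % p = (r + k₂) % p ∧ k₂ % p = k₃ % p) ∧
      ¬ (k₂ % p = (r + k₁) % p ∧ k₁ % p = k₃ % p) ∧
      ¬ (k₃ % p = (r + k₁) % p ∧ k₁ % p = k₂ % p))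
    {x y z : ℤ} (hx : x ≠ 0) (hy : y ≠ 0) (hz : z ≠ 0) :
    2 ^ k₁ * (L : ℤ) ^ m₁ * x ^ p + 2 ^ k₂ * (L : ℤ) ^ m₂ * y ^ p +
      2 ^ k₃ * (L : ℤ) ^ m₃ * z ^ p ≠ 0 := by
  have hL0 : L ≠ 0 := by omega
  have hL' : (L : ℤ) ≠ 0 := by exact_mod_cast hL0
  have h0 : ∀ {k m : ℕ} {z : ℤ}, z ≠ 0 → (2 : ℤ) ^ k * (L : ℤ) ^ m * z ^ p ≠ 0 := fun hz =>
    mul_ne_zero (mul_ne_zero (pow_ne_zero _ two_ne_zero) (pow_ne_zero _ hL')) (pow_ne_zero _ hz)
  refine no_solution_of_noTriple n1 nL n2 nL2 (h0 hx) (h0 hy) (h0 hz) ?_ ?_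
  · intro q hq h2 hqL
    obtain ⟨e1, e2⟩ := val_other hq hL h2 hqL
    rw [val_rhs hq hL0 hx, val_rhs hq hL0 hy, val_rhs hq hL0 hz, e1, e2]
    simp
  · intro r hr
    obtain ⟨c1, c2, c3⟩ := hk r hr
    rw [val_rhs Nat.prime_two hL0 hx, val_rhs Nat.prime_two hL0 hy, val_rhs Nat.prime_two hL0 hz,
      padicValInt_two_two, padicValInt_two_odd hL2]
    simp only [mul_one, mul_zero, add_zero, ← add_assoc]
    exact ⟨fun h => c1 ⟨mod_of_eq h.1, mod_of_eq h.2⟩, fun h => c2 ⟨mod_of_eq h.1, mod_of_eq h.2⟩,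
      fun h => c3 ⟨mod_of_eq h.1, mod_of_eq h.2⟩⟩

/-- **The equation `x ^ p + y ^ p = 2 ^ k L ^ m z ^ p`**: for `k ≡ 4` modulo `p` only the levels `1` and
`L` have to be excluded, for `k` not congruent to `1, 2, 3, 4` only the levels `2` and `2 L`. -/
theorem main_of_noTriple (hp : 4 < p) {L : ℕ} (hL : L = 1 ∨ L.Prime) (hL2 : L % 2 = 1)
    {k m : ℕ} (hk : k % p ≠ 1 ∧ k % p ≠ 2 ∧ k % p ≠ 3)
    (h1 : k % p = 4 → NoTriple p 1 ∧ NoTriple p L)
    (h2 : k % p ≠ 4 → NoTriple p 2 ∧ NoTriple p (L * 2)) {x y z : ℤ}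
    (hx : x ≠ 0) (hy : y ≠ 0) (hz : z ≠ 0) : x ^ p + y ^ p ≠ 2 ^ k * (L : ℤ) ^ m * z ^ p := by
  intro heq
  have hL0 : L ≠ 0 := by omega
  have hL' : (L : ℤ) ≠ 0 := by exact_mod_cast hL0
  have h0 : (2 : ℤ) ^ k * (L : ℤ) ^ m * z ^ p ≠ 0 :=
    mul_ne_zero (mul_ne_zero (pow_ne_zero _ two_ne_zero) (pow_ne_zero _ hL')) (pow_ne_zero _ hz)
  obtain ⟨A', B', C', g, P⟩ := exists_prim (pow_ne_zero p hx) (pow_ne_zero p hy)
    (neg_ne_zero.mpr h0) (by linear_combination heq)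
  have hpos := P.val_two_pos
  -- the valuation at `2` is congruent to `k`
  have key : padicValInt 2 (A' * B' * C') % p = k % p := by
    have h := P.val Nat.prime_two
    rw [padicValInt_pow' Nat.prime_two hx, padicValInt_pow' Nat.prime_two hy, padicValInt_neg',
      val_rhs Nat.prime_two hL0 hz, padicValInt_two_two, padicValInt_two_odd hL2, mul_one, mul_zero,
      add_zero] at h
    have hmod : ∀ a b c d : ℕ, a + p * b = c + p * d → a % p = c % p := fun a b c d h =>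
      mod_of_eq h
    rcases h with h | ⟨h, h'⟩ | ⟨h, h'⟩ | ⟨h, -⟩
    · omega
    · have e1 := hmod _ _ 0 _ (h.symm.trans (zero_add _).symm)
      have e2 := hmod _ _ 0 _ (h'.symm.trans (zero_add _).symm)
      rw [e1, e2]
    · have e1 := hmod _ _ 0 _ (h.symm.trans (zero_add _).symm)
      have e2 := hmod _ _ 0 _ (h'.symm.trans (zero_add _).symm)
      rw [e1, e2]
    · exact hmod _ _ _ _ h.symm
  have hdvd : 4 ≤ padicValInt 2 (A' * B' * C') := by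
    by_contra hlt
    rw [Nat.mod_eq_of_lt (by omega)] at key
    omega
  have hiff : p ∣ padicValInt 2 (A' * B' * C') - 4 ↔ k % p = 4 := by
    rw [← key]
    constructor
    · rintro ⟨c, hc⟩
      have e : padicValInt 2 (A' * B' * C') = 4 + p * c := by omega
      rw [e, Nat.add_mul_mod_self_left, Nat.mod_eq_of_lt hp]
    · intro h
      rw [← Nat.mod_eq_of_lt hp] at h
      exact (Nat.modEq_iff_dvd' hdvd).mp h.symm
  refine contradiction_of_noTriple P ?_ hdvd (fun h => h1 (hiff.mp h))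
    (fun h => h2 fun h' => h (hiff.mpr h'))
  intro q hq hq2 hqL
  obtain ⟨e1, e2⟩ := val_other hq hL hq2 hqL
  rw [padicValInt_pow' hq hx, padicValInt_pow' hq hy, padicValInt_neg', val_rhs hq hL0 hz, e1, e2]
  simp

end Fermat.Agent.Cor
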