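import Fermat.Agent.Corollaries.K4S.Trace
import Fermat.Agent.Corollaries.K4.Frey

/-!
# The coefficient at `3` of a form congruent to a Frey curve

`(A, B, C)` a Frey triple, `M` prime to `3`, the Frey curve residually modular at `p ≥ 5` of level
`M`: the third coefficient of the form is congruent to `0` or `± 4` modulo a prime above `p`.
-/

set_option autoImplicit false

noncomputable section

namespace Fermat.Agent.Cor

open WeierstrassCurve Fermat.Agent.ECRed ModularFormClass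

/-- number of affine points over `𝔽₃` -/
def cnt3 (V : WeierstrassCurve (ZMod 3)) : ℕ :=
  (Finset.univ.filter fun p : ZMod 3 × ZMod 3 =>
    p.2 ^ 2 + V.a₁ * p.1 * p.2 + V.a₃ * p.2 = p.1 ^ 3 + V.a₂ * p.1 ^ 2 + V.a₄ * p.1 + V.a₆).card

/-- the points of `V` as an option type -/
def pointEquiv' {F : Type*} [Field F] (V : WeierstrassCurve F) :
    V.toAffine.Point ≃ Option {p : F × F // V.toAffine.Nonsingular p.1 p.2} where
  toFun P := match P with
    | .zero => none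
    | .some x y h => some ⟨(x, y), h⟩
  invFun o := match o with
    | none => .zero
    | some p => .some p.1.1 p.1.2 p.2
  left_inv P := by cases P <;> rfl
  right_inv o := by rcases o with _ | ⟨⟨x, y⟩, h⟩ <;> rfl

theorem card_eq_cnt3 (V : WeierstrassCurve (ZMod 3)) (hV : V.Δ ≠ 0) : V.card = 1 + cnt3 V := by
  classical
  have : Fact (Nat.Prime 3) := ⟨Nat.prime_three⟩
  unfold WeierstrassCurve.card
  rw [Nat.card_congr (pointEquiv' V), Finite.card_option, add_comm]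
  congr 1
  rw [Nat.card_eq_fintype_card, Fintype.card_subtype, cnt3]
  congr 1
  ext p
  simp only [Finset.mem_filter, Finset.mem_univ, true_and]
  rw [← WeierstrassCurve.Affine.equation_iff_nonsingular_of_Δ_ne_zero hV,
    WeierstrassCurve.Affine.equation_iff]

theorem trace_eq_cnt3 (V : WeierstrassCurve (ZMod 3)) (hV : V.Δ ≠ 0) :
    V.traceOfFrobenius = 3 - cnt3 V := by
  unfold WeierstrassCurve.traceOfFrobenius
  rw [card_eq_cnt3 V hV]
  simp
  ring

/-- the trace of Frobenius at `3` by counting -/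
theorem apOfModel_three_eq (W : WeierstrassCurve ℤ) (h : ¬ (3 : ℤ) ∣ W.Δ) :
    W.apOfModel 3 = 3 - cnt3 ⟨(W.a₁ : ZMod 3), W.a₂, W.a₃, W.a₄, W.a₆⟩ := by
  have h1 : (W.reductionMod 3).Δ ≠ 0 := by
    rw [WeierstrassCurve.reductionMod, WeierstrassCurve.map_Δ]
    intro h0
    apply h
    have := (ZMod.intCast_zmod_eq_zero_iff_dvd W.Δ 3).1 (by simpa using h0)
    exact_mod_cast this
  rw [WeierstrassCurve.apOfModel, trace_eq_cnt3 _ h1]
  rfl

variable {A B C : ℤ}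

theorem tab_three : ∀ u v a b c : ZMod 3, (a * b * c ≠ 0 ∧ 4 * u = b - a - 1 ∧
    16 * v = -(a * b) ∧ a + b + c = 0) → (u = 2 ∧ v = 2) := by
  decide

theorem FreyTriple.cast_three (h : FreyTriple A B C) (h3 : ¬ (3 : ℤ) ∣ (fA A B).Δ) :
    ((fA A B).a₂ : ZMod 3) = 2 ∧ ((fA A B).a₄ : ZMod 3) = 2 := by
  have hABC : ¬ (3 : ℤ) ∣ A * B * C := by
    intro h'
    apply h3
    have h1 := h.dvd_Δ_iff (q := 3) Nat.prime_three (by norm_num)
    exact_mod_cast h1.2 (by exact_mod_cast h')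
  have e2 := congrArg (Int.cast : ℤ → ZMod 3) (fA_a₂ h.four h.sixteen)
  have e4 := congrArg (Int.cast : ℤ → ZMod 3) (fA_a₄ (A := A) h.sixteen)
  have es := congrArg (Int.cast : ℤ → ZMod 3) h.sum
  have hne : ((A : ZMod 3)) * B * C ≠ 0 := by
    intro h0
    apply hABC
    have := (ZMod.intCast_zmod_eq_zero_iff_dvd (A * B * C) 3).1 (by push_cast; exact h0)
    exact_mod_cast this
  push_cast at e2 e4 es
  exact tab_three _ _ _ _ _ ⟨hne, e2, e4, es⟩

/-- the Frey curve has four points over `𝔽₃` if it has good reduction at `3` -/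
theorem FreyTriple.apOfModel_three (h : FreyTriple A B C) (h3 : ¬ (3 : ℤ) ∣ (fA A B).Δ) :
    (fA A B).apOfModel 3 = 0 := by
  rw [apOfModel_three_eq _ h3]
  obtain ⟨h2, h4⟩ := h.cast_three h3
  have h1 : ((fA A B).a₁ : ZMod 3) = 1 := by simp [fA]
  have h0 : ((fA A B).a₃ : ZMod 3) = 0 := by simp [fA]
  have h6 : ((fA A B).a₆ : ZMod 3) = 0 := by simp [fA]
  rw [h1, h2, h4, h0, h6]
  have : cnt3 ⟨1, 2, 0, 2, 0⟩ = 3 := by decide
  rw [this]
  norm_num

/-- **The third coefficient of a form congruent to a Frey curve.** -/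
theorem coeff_three_of_frey (h : FreyTriple A B C) {p : ℕ} (hp : p.Prime) (h5 : 5 ≤ p) {M : ℕ}
    (hM : M ≠ 0) (h3 : ¬ 3 ∣ M) (hres : (fA A B).IsResiduallyModularOfLevel p M) :
    ∃ f : CuspForm (CongruenceSubgroup.Gamma0 M) 2, f.IsNormalizedEigenform ∧
      ∃ 𝔪 : Ideal (integralClosure ℤ ℂ), 𝔪.IsMaximal ∧ (p : integralClosure ℤ ℂ) ∈ 𝔪 ∧
        ∃ a : integralClosure ℤ ℂ, (a : ℂ) = qCoeff f 3 ∧ (a ∈ 𝔪 ∨ a - 4 ∈ 𝔪 ∨ a + 4 ∈ 𝔪) := by
  have : Fact p.Prime := ⟨hp⟩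
  obtain ⟨f, 𝔪, hf, h𝔪, hp𝔪, hcong⟩ := hres
  refine ⟨f, hf, 𝔪, h𝔪, hp𝔪, ?_⟩
  have h3p : (3 : ℕ) ≠ p := by omega
  by_cases hg : (3 : ℤ) ∣ (fA A B).Δ
  · have hmult : IsMultAt (fA A B) 3 :=
      ⟨Nat.prime_three, hg, h.isSemistableModel 3 Nat.prime_three hg, h.Δ_ne_zero⟩
    obtain ⟨a, ha, ha'⟩ := coeff_mult_of_resMod hM h.Δ_ne_zero (by omega) hf h𝔪 hp𝔪 hcong hmult h3
      h3p
    refine ⟨a, ha, Or.inr ?_⟩
    norm_num at ha'
    exact ha'
  · obtain ⟨a, ha, ha'⟩ := hcong 3 Nat.prime_three hg h3 h3p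
    refine ⟨a, ha, Or.inl ?_⟩
    rw [h.apOfModel_three hg] at ha'
    simpa using ha'

end Fermat.Agent.Cor
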