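import Fermat.Agent.Corollaries.K4S.Span
import Fermat.Agent.Corollaries.K4S.Cond
import Fermat.Agent.Corollaries.K4S.Tab
import Fermat.Agent.Corollaries.K4S.FreyThree
import Fermat.Agent.Corollaries.K4.Level
import Fermat.Agent.Corollaries.LevelLower

/-!
# Corollaries, K4S: the level `34`

A Frey curve with `W[p]` irreducible, `p ≥ 5`, is not of level `34`: the form of level `34` congruent to it
has third coefficient `0` or `-2`. The value `-2` is impossible (the coefficient is congruent to `0` or `± 4`),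
and a form with third coefficient `0` has the coefficients of the form of level `17` at the odd numbers, so
`W` is residually modular of level `17`, which is impossible because `W[p]` is ramified at `2`.
-/

set_option autoImplicit false

open WeierstrassCurve CuspForm ModularFormClass CongruenceSubgroup
open FermatAgent.HeckeEigen Fermat.Agent.Oldforms Fermat.Agent.ECRed

namespace Fermat.Agent.Cor.K4S

/-- An eigenvector is a combination of the basis vectors with the same eigenvalue. -/
theorem exists_comb {V : Type*} [AddCommGroup V] [Module ℂ V] {T : Module.End ℂ V} {n : ℕ}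
    {v : Fin n → V} {c : Fin n → ℂ} (hv : ∀ i, T (v i) = c i • v i) (hli : LinearIndependent ℂ v)
    (hn : Module.finrank ℂ V = n) (hn0 : n ≠ 0) {f : V} {x : ℂ} (hT : T f = x • f) :
    ∃ d : Fin n → ℂ, f = ∑ i, d i • v i ∧ ∀ i, d i ≠ 0 → x = c i := by
  have : Nonempty (Fin n) := ⟨⟨0, Nat.pos_of_ne_zero hn0⟩⟩
  let b := basisOfLinearIndependentOfCardEqFinrank hli (by rw [Fintype.card_fin, hn])
  have hb : ∀ i, b i = v i := fun i => by
    simp [b]
  have hf : f = ∑ i, b.repr f i • v i := by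
    conv_lhs => rw [← b.sum_repr f]
    exact Finset.sum_congr rfl fun i _ => by rw [hb]
  refine ⟨fun i => b.repr f i, hf, fun i hi => ?_⟩
  have h2 : T f = ∑ j, (b.repr f j * c j) • b j := by
    conv_lhs => rw [hf]
    rw [map_sum]
    refine Finset.sum_congr rfl fun j _ => ?_
    rw [map_smul, hb, hv, smul_smul]
  have h3 := congrArg (fun y => b.repr y i) h2
  simp only [hT, map_smul, Finsupp.smul_apply, smul_eq_mul, map_sum, b.repr_self,
    Finsupp.coe_finsetSum, Finset.sum_apply, Finsupp.smul_single, mul_one,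
    Finsupp.single_apply, Finset.sum_ite_eq', Finset.mem_univ, if_true] at h3
  have h4 : (x - c i) * b.repr f i = 0 := by linear_combination h3
  exact sub_eq_zero.mp ((mul_eq_zero.mp h4).resolve_right hi)

/-- **The eigenforms of level `34`**: the third coefficient is `-2`, or it is `0` and the coefficients at the
odd numbers are those of the form of level `17`. -/
theorem coeff_34 {g : CuspForm (Gamma0 17) 2} (hg : g.IsNormalizedEigenform)
    {f : CuspForm (Gamma0 34) 2} (hf : f.IsNormalizedEigenform) :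
    qCoeff ⇑f 3 = -2 ∨ (qCoeff ⇑f 3 = 0 ∧ ∀ n, ¬ 2 ∣ n → qCoeff ⇑f n = qCoeff ⇑g n) := by
  have hg3 : qCoeff ⇑g 3 = 0 := coeff_three_17 hg
  obtain ⟨a, ha, ha3, -⟩ := form34
  have hd : 17 ∣ 34 := by decide
  have hM : 34 = 2 * 17 := rfl
  refine (coeff_three_34 hf).symm.imp_right fun h0 => ⟨h0, ?_⟩
  obtain ⟨d, hfd, hd0⟩ := exists_comb (T := heckeOp 34 2 P3) (n := 3)
    (v := ![restr 34 hd 2 g, V 2 two_ne_zero hM g, a]) (c := ![0, 0, -2])
    (fun i => by
      fin_cases i
      · exact (hecke3_restr hM hg hd).trans (by rw [hg3]; rfl)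
      · exact (hecke3_V hM hg).trans (by rw [hg3]; rfl)
      · exact (hecke3 ha).trans (by rw [ha3]; rfl))
    (by
      rw [Fintype.linearIndependent_iff]
      intro c h
      rw [Fin.sum_univ_three] at h
      have h1 := congrArg (fun F : CuspForm (Gamma0 34) 2 => qCoeff ⇑F 1) h
      have h2 := congrArg (fun F : CuspForm (Gamma0 34) 2 => qCoeff ⇑F 2) h
      have h3 := congrArg (fun F : CuspForm (Gamma0 34) 2 => qCoeff ⇑F 3) h
      simp only [Matrix.cons_val_zero, Matrix.cons_val_one, Matrix.cons_val, qCoeff_add,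
        qCoeff_smul, coe_restr, qCoeff_V, hg.qCoeff_one, ha.qCoeff_one, hg3, ha3,
        qCoeff_zero] at h1 h2 h3
      norm_num [hg.qCoeff_one] at h1 h2 h3
      have e0 : c 0 = 0 := by linear_combination h1 - h3
      rw [e0, h3] at h2
      intro i
      fin_cases i
      · exact e0
      · simpa using h2
      · exact h3)
    ((finrank_eq_iff 34 3).mpr (by decide +kernel)) three_ne_zero (x := 0)
    ((hecke3 hf).trans (by rw [h0]))
  have h2 : d 2 = 0 := by
    by_contra h
    have h3 : (0 : ℂ) = -2 := hd0 2 h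
    norm_num at h3
  rw [Fin.sum_univ_three] at hfd
  simp only [Matrix.cons_val_zero, Matrix.cons_val_one, Matrix.cons_val, h2, zero_smul,
    add_zero] at hfd
  have hcoef : ∀ n, ¬ 2 ∣ n → qCoeff ⇑f n = d 0 * qCoeff ⇑g n := by
    intro n hn
    rw [hfd, qCoeff_add, qCoeff_smul, qCoeff_smul, coe_restr, qCoeff_V, if_neg hn, mul_zero,
      add_zero]
  have hd1 : d 0 = 1 := by
    have h1 := hcoef 1 (by decide)
    rw [hf.qCoeff_one, hg.qCoeff_one, mul_one] at h1
    exact h1.symm
  intro n hn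
  rw [hcoef n hn, hd1, one_mul]

variable {A B C : ℤ} {p : ℕ}

/-- **A Frey curve with irreducible `W[p]` is not of level `34`.** -/
theorem freyLevel_ne_34 (hp : p.Prime) (h5 : 5 ≤ p) (h : FreyTriple A B C)
    (hirr : (fA A B).ModRepIsIrreducible p) : freyLevel p (A * B * C) ≠ 34 := by
  intro hlev
  have : Fact p.Prime := ⟨hp⟩
  have hp2 : p ≠ 2 := by omega
  have hser : serreLevel (fA A B) p = 34 := (h.level hp hp2).trans hlev
  have hres := resMod_serre h.Δ_ne_zero h.isSemistableModel hp hp2 hirr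
  have hbad := (prime_dvd_serreLevel_iff (W := fA A B) (p := p) h.Δ_ne_zero Nat.prime_two).mp
    (by rw [hser]; decide)
  rw [hser] at hres
  obtain ⟨f, 𝔪, hf, hm, hpm, hcong⟩ := hres
  obtain ⟨g, hg, -⟩ := form17
  have h3p : (3 : ℕ) ≠ p := by omega
  -- the third coefficient is congruent to `0` or `± 4`
  have h3 : ∃ a : integralClosure ℤ ℂ, (a : ℂ) = qCoeff f 3 ∧ (a ∈ 𝔪 ∨ a - 4 ∈ 𝔪 ∨ a + 4 ∈ 𝔪) := by
    by_cases hg3 : (3 : ℤ) ∣ (fA A B).Δ
    · have hmult : IsMultAt (fA A B) 3 :=
        ⟨Nat.prime_three, hg3, h.isSemistableModel 3 Nat.prime_three hg3, h.Δ_ne_zero⟩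
      obtain ⟨a, ha, ha'⟩ := coeff_mult_of_resMod (by decide) h.Δ_ne_zero hp2 hf hm hpm hcong
        hmult (by decide) h3p
      refine ⟨a, ha, Or.inr ?_⟩
      norm_num at ha'
      exact ha'
    · obtain ⟨a, ha, ha'⟩ := hcong 3 Nat.prime_three hg3 (by decide) h3p
      refine ⟨a, ha, Or.inl ?_⟩
      rw [h.apOfModel_three hg3] at ha'
      simpa using ha'
  rcases coeff_34 hg hf with hf3 | ⟨-, hfg⟩
  · obtain ⟨a, ha, h'⟩ := h3
    exact false_of_neg_two hm hp hpm h' h5 (ha.trans hf3)
  · -- level `17`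
    have h17 : (fA A B).IsResiduallyModularOfLevel p 17 := by
      refine ⟨g, 𝔪, hg, hm, hpm, fun ℓ hℓ hgood hℓ17 hℓp => ?_⟩
      have hℓ2 : ℓ ≠ 2 := by
        rintro rfl
        exact hgood hbad.1
      have h2ℓ : ¬ 2 ∣ ℓ := fun hd =>
        hℓ2 ((Nat.prime_dvd_prime_iff_eq Nat.prime_two hℓ).mp hd).symm
      rw [← hfg ℓ h2ℓ]
      refine hcong ℓ hℓ hgood (fun hd => ?_) hℓp
      have h34 : ℓ ∣ 2 * 17 := hd
      rcases hℓ.dvd_mul.mp h34 with h1 | h1
      · exact hℓ2 ((Nat.prime_dvd_prime_iff_eq hℓ Nat.prime_two).mp h1)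
      · exact hℓ17 h1
    have hmult : IsMultAt (fA A B) 2 :=
      ⟨Nat.prime_two, hbad.1, h.isSemistableModel 2 Nat.prime_two hbad.1, h.Δ_ne_zero⟩
    have h1 := dvd_of_resMod hp2 hirr (by decide) h17 hmult hp2.symm hbad.2
    revert h1
    decide

end Fermat.Agent.Cor.K4S
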