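import Fermat.Agent.Corollaries.K4S.Dioph
import Fermat.Agent.Corollaries.K4S.Level34
import Fermat.Agent.Corollaries.K4.All

/-!
# Serre's list

Serre's theorem (Sur les représentations modulaires de degré 2 de Gal(ℚ̄/ℚ), 1987, 4.3) on the equation
`x ^ p + y ^ p = L ^ m z ^ p`, now with Wiles' and Ribet's theorems: for `L = 3, 5, 7, 11, 13, 17, 19`
there is no solution with `x y z ≠ 0`, for every prime `p ≥ 11` (for `L ≤ 7` and `L = 17` for every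
prime `p ≥ 5`, for `L = 11, 19` for `p ≥ 7`). More generally with a coefficient `2 ^ k`, `k` not
congruent to `1, 2, 3` modulo `p` (for `L = 17` also not to `4`: `1 + 16 = 17`).
-/

set_option autoImplicit false

open CongruenceSubgroup

namespace Fermat.Agent.Cor

variable {p L : ℕ}

theorem freyIrr (hp : p.Prime) (h5 : 5 ≤ p) : FreyIrr p := fun _ _ _ hF => hF.irreducible hp h5

/-- The Frey curve of every normalised triple is residually modular at every prime `p ≥ 5` of level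
`freyLevel p (A B C)`. -/
theorem freyMod (hp : p.Prime) (h5 : 5 ≤ p) : FreyMod p :=
  freyMod_of_irr hp (by omega) (freyIrr hp h5)

/-- The pairs `(p, L)` for which all four levels `1, 2, L, 2 L` are excluded. -/
def SerreList (p L : ℕ) : Prop :=
  (5 ≤ p ∧ (L = 1 ∨ L = 3 ∨ L = 5 ∨ L = 7)) ∨ (7 ≤ p ∧ (L = 11 ∨ L = 19)) ∨ (11 ≤ p ∧ L = 13)

theorem SerreList.five_le (h : SerreList p L) : 5 ≤ p := by
  unfold SerreList at h
  omega

theorem SerreList.prime (h : SerreList p L) : L = 1 ∨ L.Prime := by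
  rcases h with ⟨-, rfl | rfl | rfl | rfl⟩ | ⟨-, rfl | rfl⟩ | ⟨-, rfl⟩
  · exact Or.inl rfl
  all_goals exact Or.inr (by norm_num)

theorem SerreList.odd (h : SerreList p L) : L % 2 = 1 := by
  unfold SerreList at h
  omega

theorem noTriple_of_zeroLevel (hp : p.Prime) (h5 : 5 ≤ p) {M : ℕ} [NeZero M]
    (hM : M ∈ zeroLevels) : NoTriple p M :=
  noTriple_of_noForm (serreFrey_all hp h5) (noForm_of_mem hM)

theorem SerreList.noTriple (h : SerreList p L) (hp : p.Prime) :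
    NoTriple p 1 ∧ NoTriple p L ∧ NoTriple p 2 ∧ NoTriple p (L * 2) := by
  have h5 := h.five_le
  have hFM := freyMod hp h5
  refine ⟨noTriple_of_zeroLevel hp h5 (by decide), ?_, noTriple_of_zeroLevel hp h5 (by decide), ?_⟩
  · rcases h with ⟨-, rfl | rfl | rfl | rfl⟩ | ⟨h, rfl | rfl⟩ | ⟨h, rfl⟩
    · exact noTriple_of_zeroLevel hp h5 (by decide)
    · exact noTriple_of_zeroLevel hp h5 (by decide)
    · exact noTriple_of_zeroLevel hp h5 (by decide)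
    · exact noTriple_of_zeroLevel hp h5 (by decide)
    · exact noTriple_11 hp h hFM
    · exact noTriple_19 hp h5 hFM
    · exact noTriple_of_zeroLevel hp h5 (by decide)
  · rcases h with ⟨-, rfl | rfl | rfl | rfl⟩ | ⟨h, rfl | rfl⟩ | ⟨h, rfl⟩
    · exact noTriple_of_zeroLevel hp h5 (by decide)
    · exact noTriple_of_zeroLevel hp h5 (by decide)
    · exact noTriple_of_zeroLevel hp h5 (by decide)
    · exact noTriple_14 hp h5 hFM
    · exact noTriple_22 hp h hFM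
    · exact noTriple_38 hp h hFM
    · exact noTriple_26 hp h hFM

theorem noTriple_34 (hp : p.Prime) (h5 : 5 ≤ p) : NoTriple p 34 :=
  noTriple_of fun _ _ _ h => K4S.freyLevel_ne_34 hp h5 h (h.irreducible hp h5)

/-- **Serre's equation** `x ^ p + y ^ p = 2 ^ k L ^ m z ^ p`: no solution with `x y z ≠ 0` if `k` is not
congruent to `1, 2, 3` modulo `p`; `p ≥ 5` and `L = 1, 3, 5, 7`, or `p ≥ 7` and `L = 11, 19`, or `p ≥ 11`
and `L = 13`. -/
theorem serre_list (hp : p.Prime) (hL : SerreList p L) {k m : ℕ}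
    (hk : k % p ≠ 1 ∧ k % p ≠ 2 ∧ k % p ≠ 3) {x y z : ℤ}
    (hx : x ≠ 0) (hy : y ≠ 0) (hz : z ≠ 0) : x ^ p + y ^ p ≠ 2 ^ k * (L : ℤ) ^ m * z ^ p := by
  obtain ⟨n1, nL, n2, nL2⟩ := hL.noTriple hp
  have h5 := hL.five_le
  exact main_of_noTriple (by omega) hL.prime hL.odd hk (fun _ => ⟨n1, nL⟩) (fun _ => ⟨n2, nL2⟩)
    hx hy hz

/-- **The prime `17`**: `x ^ p + y ^ p = 2 ^ k 17 ^ m z ^ p` has no solution with `x y z ≠ 0` if `k` is not
congruent to `1, 2, 3, 4` modulo `p`, `p ≥ 5` (`1 + 1 = 2`, `1 + 16 = 17`). -/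
theorem serre_seventeen (hp : p.Prime) (h5 : 5 ≤ p) {k m : ℕ}
    (hk : k % p ≠ 1 ∧ k % p ≠ 2 ∧ k % p ≠ 3) (hk4 : k % p ≠ 4) {x y z : ℤ}
    (hx : x ≠ 0) (hy : y ≠ 0) (hz : z ≠ 0) : x ^ p + y ^ p ≠ 2 ^ k * 17 ^ m * z ^ p := by
  have h := main_of_noTriple (p := p) (L := 17) (m := m) (by omega) (Or.inr (by norm_num)) rfl hk
    (fun h => absurd h hk4)
    (fun _ => ⟨noTriple_of_zeroLevel hp h5 (by decide), noTriple_34 hp h5⟩) hx hy hz
  exact_mod_cast h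

/-- **Three terms**: `± 2 ^ k₁ L ^ m₁ x ^ p ± 2 ^ k₂ L ^ m₂ y ^ p ± 2 ^ k₃ L ^ m₃ z ^ p ≠ 0` (the signs are in
`x`, `y`, `z`), unless two of the `k_i` are equal modulo `p` and the third exceeds them by `1`, `2` or
`3`. -/
theorem serre_list_three_terms (hp : p.Prime) (hL : SerreList p L)
    {k₁ k₂ k₃ m₁ m₂ m₃ : ℕ}
    (hk : ∀ r : ℕ, r = 1 ∨ r = 2 ∨ r = 3 →
      ¬ (k₁ % p = (r + k₂) % p ∧ k₂ % p = k₃ % p) ∧
      ¬ (k₂ % p = (r + k₁) % p ∧ k₁ % p = k₃ % p) ∧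
      ¬ (k₃ % p = (r + k₁) % p ∧ k₁ % p = k₂ % p))
    {x y z : ℤ} (hx : x ≠ 0) (hy : y ≠ 0) (hz : z ≠ 0) :
    2 ^ k₁ * (L : ℤ) ^ m₁ * x ^ p + 2 ^ k₂ * (L : ℤ) ^ m₂ * y ^ p +
      2 ^ k₃ * (L : ℤ) ^ m₃ * z ^ p ≠ 0 := by
  obtain ⟨n1, nL, n2, nL2⟩ := hL.noTriple hp
  exact coeff_of_noTriple hL.prime hL.odd n1 nL n2 nL2 hk hx hy hz

/-- **Serre's theorem**: for `L = 1, 3, 5, 7, 11, 13, 17, 19` and every prime `p ≥ 11` the equation
`x ^ p + y ^ p = L ^ m z ^ p` has no solution with `x y z ≠ 0`. -/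
theorem serre_theorem (hp : p.Prime) (h11 : 11 ≤ p)
    (hL : L = 1 ∨ L = 3 ∨ L = 5 ∨ L = 7 ∨ L = 11 ∨ L = 13 ∨ L = 17 ∨ L = 19) {m : ℕ} {x y z : ℤ}
    (hx : x ≠ 0) (hy : y ≠ 0) (hz : z ≠ 0) : x ^ p + y ^ p ≠ (L : ℤ) ^ m * z ^ p := by
  by_cases h17 : L = 17
  · subst h17
    have h1 := serre_seventeen hp (by omega) (k := 0) (m := m) (by simp) (by simp) hx hy hz
    rw [pow_zero, one_mul] at h1
    exact_mod_cast h1
  · have h1 := serre_list hp (L := L) (by unfold SerreList; omega) (k := 0) (m := m) (by simp)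
      hx hy hz
    rwa [pow_zero, one_mul] at h1

/-- **Serre's theorem for all exponents** divisible by a prime `p ≥ 11`. -/
theorem serre_theorem_exponent {n : ℕ} (hp : p.Prime) (h11 : 11 ≤ p) (hn : p ∣ n)
    (hL : L = 1 ∨ L = 3 ∨ L = 5 ∨ L = 7 ∨ L = 11 ∨ L = 13 ∨ L = 17 ∨ L = 19) {m : ℕ} {x y z : ℤ}
    (hx : x ≠ 0) (hy : y ≠ 0) (hz : z ≠ 0) : x ^ n + y ^ n ≠ (L : ℤ) ^ m * z ^ n := by
  obtain ⟨d, rfl⟩ := hn
  have h := serre_theorem hp h11 hL (m := m) (pow_ne_zero d hx) (pow_ne_zero d hy)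
    (pow_ne_zero d hz)
  rwa [← pow_mul, ← pow_mul, ← pow_mul, mul_comm d p] at h

/-- **The exponents `5` and `7`** and more generally every prime `p ≥ 5`: `x ^ p + y ^ p = L ^ m z ^ p`,
`L = 3, 5, 7, 17`, has no solution with `x y z ≠ 0`. -/
theorem serre_theorem_five (hp : p.Prime) (h5 : 5 ≤ p)
    (hL : L = 1 ∨ L = 3 ∨ L = 5 ∨ L = 7 ∨ L = 17) {m : ℕ} {x y z : ℤ}
    (hx : x ≠ 0) (hy : y ≠ 0) (hz : z ≠ 0) : x ^ p + y ^ p ≠ (L : ℤ) ^ m * z ^ p := by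
  by_cases h17 : L = 17
  · subst h17
    have h1 := serre_seventeen hp h5 (k := 0) (m := m) (by simp) (by simp) hx hy hz
    rw [pow_zero, one_mul] at h1
    exact_mod_cast h1
  · have h1 := serre_list hp (L := L) (by unfold SerreList; omega) (k := 0) (m := m) (by simp)
      hx hy hz
    rwa [pow_zero, one_mul] at h1

end Fermat.Agent.Cor
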