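import Fermat.Agent.Corollaries.K4S.NoNew

/-!
# Serre's theorem, the complete list

Serre (Sur les représentations modulaires de degré 2 de Gal(ℚ̄/ℚ), 1987, 4.3, Théorème 2): the
equation `x ^ p + y ^ p = L ^ m z ^ p` has no solution with `x y z ≠ 0` for every prime `p ≥ 11` and
`L = 3, 5, 7, 11, 13, 17, 19, 23, 29, 53, 59`. Serre deduced it from his conjecture; here it has no
hypothesis, and `p = L` is allowed.
-/

set_option autoImplicit false

namespace Fermat.Agent.Cor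

variable {p L : ℕ}

/-- The pairs `(p, L)` with `L = 23, 29, 53, 59`: the levels `2` and `2 L` are excluded. -/
def SerreListNew (p L : ℕ) : Prop :=
  7 ≤ p ∧ (L = 23 ∨ L = 29 ∨ L = 53 ∨ L = 59)

theorem SerreListNew.noTriple (h : SerreListNew p L) (hp : p.Prime) :
    NoTriple p 2 ∧ NoTriple p (L * 2) := by
  refine ⟨noTriple_of_zeroLevel hp (by have := h.1; omega) (by decide), ?_⟩
  rcases h with ⟨h, rfl | rfl | rfl | rfl⟩
  · exact noTriple_46 hp h
  · exact noTriple_58 hp h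
  · exact noTriple_106 hp h
  · exact noTriple_118 hp h

/-- **The primes `23, 29, 53, 59`**: `x ^ p + y ^ p = 2 ^ k L ^ m z ^ p` has no solution with
`x y z ≠ 0` if `k` is not congruent to `1, 2, 3, 4` modulo `p`; every prime `p ≥ 7`. -/
theorem serre_list_new (hp : p.Prime) (hL : SerreListNew p L) {k m : ℕ}
    (hk : k % p ≠ 1 ∧ k % p ≠ 2 ∧ k % p ≠ 3) (hk4 : k % p ≠ 4) {x y z : ℤ}
    (hx : x ≠ 0) (hy : y ≠ 0) (hz : z ≠ 0) : x ^ p + y ^ p ≠ 2 ^ k * (L : ℤ) ^ m * z ^ p := by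
  have h := hL.noTriple hp
  unfold SerreListNew at hL
  refine main_of_noTriple (by omega) (Or.inr ?_) (by omega) hk (fun h => absurd h hk4)
    (fun _ => h) hx hy hz
  rcases hL with ⟨-, rfl | rfl | rfl | rfl⟩ <;> norm_num

/-- **Serre's theorem with a power of two**: `x ^ p + y ^ p = 2 ^ k L ^ m z ^ p` has no solution with
`x y z ≠ 0` for every prime `p ≥ 11`, `L = 1, 3, 5, 7, 11, 13, 17, 19, 23, 29, 53, 59` and `k` not
congruent to `1, 2, 3, 4` modulo `p`. -/
theorem serre_complete_two (hp : p.Prime) (h11 : 11 ≤ p)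
    (hL : L ∈ [1, 3, 5, 7, 11, 13, 17, 19, 23, 29, 53, 59]) {k m : ℕ}
    (hk : k % p ≠ 1 ∧ k % p ≠ 2 ∧ k % p ≠ 3) (hk4 : k % p ≠ 4) {x y z : ℤ}
    (hx : x ≠ 0) (hy : y ≠ 0) (hz : z ≠ 0) : x ^ p + y ^ p ≠ 2 ^ k * (L : ℤ) ^ m * z ^ p := by
  simp only [List.mem_cons, List.not_mem_nil, or_false] at hL
  by_cases h17 : L = 17
  · subst h17
    exact_mod_cast serre_seventeen hp (by omega) (m := m) hk hk4 hx hy hz
  · by_cases h1 : SerreListNew p L
    · exact serre_list_new hp h1 hk hk4 hx hy hz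
    · unfold SerreListNew at h1
      exact serre_list hp (L := L) (by unfold SerreList; omega) hk hx hy hz

/-- **Serre's theorem**: for every prime `p ≥ 11` and `L = 1, 3, 5, 7, 11, 13, 17, 19, 23, 29, 53, 59`
the equation `x ^ p + y ^ p = L ^ m z ^ p` has no solution with `x y z ≠ 0`. -/
theorem serre_complete (hp : p.Prime) (h11 : 11 ≤ p)
    (hL : L ∈ [1, 3, 5, 7, 11, 13, 17, 19, 23, 29, 53, 59]) {m : ℕ} {x y z : ℤ}
    (hx : x ≠ 0) (hy : y ≠ 0) (hz : z ≠ 0) : x ^ p + y ^ p ≠ (L : ℤ) ^ m * z ^ p := by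
  have h1 := serre_complete_two hp h11 hL (k := 0) (m := m) (by simp) (by simp) hx hy hz
  rwa [pow_zero, one_mul] at h1

/-- **Serre's theorem for the exponent `7`**: only `L = 13` is missing. -/
theorem serre_complete_seven (hp : p.Prime) (h7 : 7 ≤ p)
    (hL : L ∈ [1, 3, 5, 7, 11, 17, 19, 23, 29, 53, 59]) {m : ℕ} {x y z : ℤ}
    (hx : x ≠ 0) (hy : y ≠ 0) (hz : z ≠ 0) : x ^ p + y ^ p ≠ (L : ℤ) ^ m * z ^ p := by
  simp only [List.mem_cons, List.not_mem_nil, or_false] at hL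
  by_cases h17 : L = 17
  · exact serre_theorem_five hp (by omega) (by omega) hx hy hz
  · by_cases h1 : SerreListNew p L
    · have h := serre_list_new hp h1 (k := 0) (m := m) (by simp) (by simp) hx hy hz
      rwa [pow_zero, one_mul] at h
    · unfold SerreListNew at h1
      have h := serre_list hp (L := L) (by unfold SerreList; omega) (k := 0) (m := m) (by simp)
        hx hy hz
      rwa [pow_zero, one_mul] at h

/-- **Serre's theorem for all exponents** divisible by a prime `p ≥ 11`. -/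
theorem serre_complete_exponent {n : ℕ} (hp : p.Prime) (h11 : 11 ≤ p) (hn : p ∣ n)
    (hL : L ∈ [1, 3, 5, 7, 11, 13, 17, 19, 23, 29, 53, 59]) {m : ℕ} {x y z : ℤ}
    (hx : x ≠ 0) (hy : y ≠ 0) (hz : z ≠ 0) : x ^ n + y ^ n ≠ (L : ℤ) ^ m * z ^ n := by
  obtain ⟨d, rfl⟩ := hn
  have h := serre_complete hp h11 hL (m := m) (pow_ne_zero d hx) (pow_ne_zero d hy)
    (pow_ne_zero d hz)
  rwa [← pow_mul, ← pow_mul, ← pow_mul, mul_comm d p] at h

end Fermat.Agent.Cor
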