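import Fermat.Agent.Corollaries.K4S.FreyThree

/-!
# The coefficients at `3` and `5` of a form congruent to a Frey curve

The versions for a given form and a given maximal ideal: the third coefficient is congruent to `0` or
`± 4`, the fifth to `± 2` or `± 6`.
-/

set_option autoImplicit false

noncomputable section

namespace Fermat.Agent.Cor

open WeierstrassCurve Fermat.Agent.ECRed ModularFormClass

/-- number of affine points over `𝔽₅` -/
def cnt5 (V : WeierstrassCurve (ZMod 5)) : ℕ :=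
  (Finset.univ.filter fun p : ZMod 5 × ZMod 5 =>
    p.2 ^ 2 + V.a₁ * p.1 * p.2 + V.a₃ * p.2 = p.1 ^ 3 + V.a₂ * p.1 ^ 2 + V.a₄ * p.1 + V.a₆).card

theorem card_eq_cnt5 (V : WeierstrassCurve (ZMod 5)) (hV : V.Δ ≠ 0) : V.card = 1 + cnt5 V := by
  classical
  have : Fact (Nat.Prime 5) := ⟨Nat.prime_five⟩
  unfold WeierstrassCurve.card
  rw [Nat.card_congr (pointEquiv' V), Finite.card_option, add_comm]
  congr 1
  rw [Nat.card_eq_fintype_card, Fintype.card_subtype, cnt5]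
  congr 1
  ext p
  simp only [Finset.mem_filter, Finset.mem_univ, true_and]
  rw [← WeierstrassCurve.Affine.equation_iff_nonsingular_of_Δ_ne_zero hV,
    WeierstrassCurve.Affine.equation_iff]

/-- the trace of Frobenius at `5` by counting -/
theorem apOfModel_five_eq (W : WeierstrassCurve ℤ) (h : ¬ (5 : ℤ) ∣ W.Δ) :
    W.apOfModel 5 = 5 - cnt5 ⟨(W.a₁ : ZMod 5), W.a₂, W.a₃, W.a₄, W.a₆⟩ := by
  have h1 : (W.reductionMod 5).Δ ≠ 0 := by
    rw [WeierstrassCurve.reductionMod, WeierstrassCurve.map_Δ]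
    intro h0
    apply h
    have := (ZMod.intCast_zmod_eq_zero_iff_dvd W.Δ 5).1 (by simpa using h0)
    exact_mod_cast this
  have h2 : (W.reductionMod 5).traceOfFrobenius = 5 - cnt5 (W.reductionMod 5) := by
    unfold WeierstrassCurve.traceOfFrobenius
    rw [card_eq_cnt5 _ h1]
    simp
    ring
  rw [WeierstrassCurve.apOfModel, h2]
  rfl

variable {A B C : ℤ}

/-- the table over `𝔽₅`, up to the choice of `c = -(a + b)` -/
theorem tab_five : ∀ a b u v : ZMod 5, (a * b * (a + b) ≠ 0 ∧ 4 * u = b - a - 1 ∧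
    16 * v = -(a * b)) → (cnt5 ⟨1, u, 0, v, 0⟩ = 3 ∨ cnt5 ⟨1, u, 0, v, 0⟩ = 7) := by
  have h4 : ∀ a b u : ZMod 5, 4 * u = b - a - 1 → u = a + 1 - b := by decide
  have h16 : ∀ a b v : ZMod 5, 16 * v = -(a * b) → v = -(a * b) := by decide
  have key : ∀ a b : ZMod 5, a * b * (a + b) ≠ 0 →
      (cnt5 ⟨1, a + 1 - b, 0, -(a * b), 0⟩ = 3 ∨ cnt5 ⟨1, a + 1 - b, 0, -(a * b), 0⟩ = 7) := by
    decide +kernel
  rintro a b u v ⟨h, hu, hv⟩
  rw [h4 a b u hu, h16 a b v hv]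
  exact key a b h

/-- the Frey curve has four or eight points over `𝔽₅` if it has good reduction at `5` -/
theorem FreyTriple.apOfModel_five (h : FreyTriple A B C) (h5 : ¬ (5 : ℤ) ∣ (fA A B).Δ) :
    (fA A B).apOfModel 5 = 2 ∨ (fA A B).apOfModel 5 = -2 := by
  have hABC : ¬ (5 : ℤ) ∣ A * B * C := by
    intro h'
    apply h5
    have h1 := h.dvd_Δ_iff (q := 5) Nat.prime_five (by norm_num)
    exact_mod_cast h1.2 (by exact_mod_cast h')
  have e2 := congrArg (Int.cast : ℤ → ZMod 5) (fA_a₂ h.four h.sixteen)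
  have e4 := congrArg (Int.cast : ℤ → ZMod 5) (fA_a₄ (A := A) h.sixteen)
  have hne : ((A : ZMod 5)) * B * (A + B) ≠ 0 := by
    intro h0
    apply hABC
    have := (ZMod.intCast_zmod_eq_zero_iff_dvd (A * B * C) 5).1 (by
      have hC : C = -(A + B) := by linear_combination h.sum
      rw [hC]
      push_cast
      linear_combination -h0)
    exact_mod_cast this
  push_cast at e2 e4
  have key := tab_five _ _ _ _ ⟨hne, e2, e4⟩
  rw [apOfModel_five_eq _ h5]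
  have h1 : ((fA A B).a₁ : ZMod 5) = 1 := by simp [fA]
  have h0 : ((fA A B).a₃ : ZMod 5) = 0 := by simp [fA]
  have h6 : ((fA A B).a₆ : ZMod 5) = 0 := by simp [fA]
  rw [h1, h0, h6]
  rcases key with key | key <;> rw [key] <;> norm_num

section Given

variable (h : FreyTriple A B C) {p : ℕ} (hp : p.Prime) (h5 : 5 ≤ p) {M : ℕ} (hM : M ≠ 0)
  {f : CuspForm (CongruenceSubgroup.Gamma0 M) 2} (hf : f.IsNormalizedEigenform)
  {𝔪 : Ideal (integralClosure ℤ ℂ)} (h𝔪 : 𝔪.IsMaximal) (hp𝔪 : (p : integralClosure ℤ ℂ) ∈ 𝔪)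
  (hcong : ∀ ℓ : ℕ, ℓ.Prime → (fA A B).IsGoodPrimeFor ℓ → ¬ ℓ ∣ M → ℓ ≠ p →
    ∃ a : integralClosure ℤ ℂ, (a : ℂ) = ModularFormClass.qCoeff f ℓ ∧
      a - (((fA A B).apOfModel ℓ : ℤ) : integralClosure ℤ ℂ) ∈ 𝔪)

include h hp h5 hM hf h𝔪 hp𝔪 hcong

/-- **The third coefficient** of a given congruent form. -/
theorem coeff_three_given (h3 : ¬ 3 ∣ M) :
    ∃ a : integralClosure ℤ ℂ, (a : ℂ) = qCoeff f 3 ∧ (a ∈ 𝔪 ∨ a - 4 ∈ 𝔪 ∨ a + 4 ∈ 𝔪) := by
  have : Fact p.Prime := ⟨hp⟩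
  have h3p : (3 : ℕ) ≠ p := by omega
  by_cases hg : (3 : ℤ) ∣ (fA A B).Δ
  · have hmult : IsMultAt (fA A B) 3 :=
      ⟨Nat.prime_three, hg, h.isSemistableModel 3 Nat.prime_three hg, h.Δ_ne_zero⟩
    obtain ⟨a, ha, ha'⟩ := coeff_mult_of_resMod hM h.Δ_ne_zero (by omega) hf h𝔪 hp𝔪 hcong hmult h3
      h3p
    refine ⟨a, ha, Or.inr ?_⟩
    norm_num at ha'
    exact ha'
  · obtain ⟨a, ha, ha'⟩ := hcong 3 Nat.prime_three hg h3 h3p
    refine ⟨a, ha, Or.inl ?_⟩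
    rw [h.apOfModel_three hg] at ha'
    simpa using ha'

/-- **The fifth coefficient** of a given congruent form, `p ≠ 5`. -/
theorem coeff_five_given (h5M : ¬ 5 ∣ M) (h5p : p ≠ 5) :
    ∃ a : integralClosure ℤ ℂ, (a : ℂ) = qCoeff f 5 ∧
      (a - 2 ∈ 𝔪 ∨ a + 2 ∈ 𝔪 ∨ a - 6 ∈ 𝔪 ∨ a + 6 ∈ 𝔪) := by
  have : Fact p.Prime := ⟨hp⟩
  by_cases hg : (5 : ℤ) ∣ (fA A B).Δ
  · have hmult : IsMultAt (fA A B) 5 :=
      ⟨Nat.prime_five, hg, h.isSemistableModel 5 Nat.prime_five hg, h.Δ_ne_zero⟩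
    obtain ⟨a, ha, ha'⟩ := coeff_mult_of_resMod hM h.Δ_ne_zero (by omega) hf h𝔪 hp𝔪 hcong hmult h5M
      (Ne.symm h5p)
    refine ⟨a, ha, Or.inr (Or.inr ?_)⟩
    norm_num at ha'
    exact ha'
  · obtain ⟨a, ha, ha'⟩ := hcong 5 Nat.prime_five hg h5M (Ne.symm h5p)
    refine ⟨a, ha, ?_⟩
    rcases h.apOfModel_five hg with h7 | h7
    · rw [h7] at ha'
      left
      simpa using ha'
    · rw [h7] at ha'
      right
      left
      simpa using ha'

end Given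

end Fermat.Agent.Cor
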