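import Fermat.Agent.Oldforms.Vq
import Fermat.Agent.Oldforms.Newform
import Fermat.Prelude.Def_CuspForm_Newforms

/-!
# Old forms and new forms at a prime `q` exactly dividing the level

`N = q L`, `q ∤ L`. The map `(g, h) ↦ g(z) + h(qz)` from `S₂(Γ₀(L))²` to `S₂(Γ₀(N))` is injective. If the
dimension of `S₂(Γ₀(N))` is `2 dim S₂(Γ₀(L)) + d` and `d` newforms of level `N` are known, every
eigenform of level `N` has the eigenvalues (away from `N`) of a form of level `L` or of one of these.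
-/

set_option autoImplicit false

noncomputable section

open CuspForm ModularFormClass CongruenceSubgroup
open FermatAgent.HeckeEigen Fermat.Agent.Oldforms

namespace Fermat.Agent.Cor.K4S

variable {N L : ℕ} [NeZero N] [NeZero L] {q : ℕ}

/-- the inclusion -/
abbrev inc (hN : N = q * L) : CuspForm (Gamma0 L) 2 →ₗ[ℂ] CuspForm (Gamma0 N) 2 :=
  restr N (Dvd.intro_left q hN.symm) 2

/-- `g(z) ↦ g(qz)` -/
abbrev vee (hq : q.Prime) (hN : N = q * L) : CuspForm (Gamma0 L) 2 →ₗ[ℂ] CuspForm (Gamma0 N) 2 :=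
  V 2 hq.ne_zero hN

omit [NeZero L] in
theorem qCoeff_inc (hN : N = q * L) (g : CuspForm (Gamma0 L) 2) (n : ℕ) :
    qCoeff ⇑(inc hN g) n = qCoeff ⇑g n := by
  rw [coe_restr]

omit [NeZero L] in
theorem qCoeff_vee (hq : q.Prime) (hN : N = q * L) (g : CuspForm (Gamma0 L) 2) (n : ℕ) :
    qCoeff ⇑(vee hq hN g) n = if q ∣ n then qCoeff ⇑g (n / q) else 0 :=
  qCoeff_V 2 hq.ne_zero hN g n

theorem vee_injective (hq : q.Prime) (hN : N = q * L) : Function.Injective (vee (L := L) hq hN) := by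
  intro f g hfg
  apply eq_of_qCoeff_eq
  intro n
  have h := congrArg (fun F : CuspForm (Gamma0 N) 2 => qCoeff ⇑F (q * n)) hfg
  simp only [qCoeff_vee, dvd_mul_right, if_true, Nat.mul_div_cancel_left _ hq.pos] at h
  exact h

/-- If `g(z) = h(qz)` with `g`, `h` of level `L`, then `g(qz)` is of level `L`. -/
theorem exists_inc_eq_vee (hq : q.Prime) (hN : N = q * L) (hqL : ¬ q ∣ L)
    {g h : CuspForm (Gamma0 L) 2} (hgh : inc hN g = vee hq hN h) :
    ∃ g₁ : CuspForm (Gamma0 L) 2, inc hN g₁ = vee hq hN g := by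
  have hq0 : (q : ℂ) ≠ 0 := by exact_mod_cast hq.ne_zero
  obtain ⟨P, rfl⟩ : ∃ P : Nat.Primes, (P : ℕ) = q := ⟨⟨q, hq⟩, rfl⟩
  refine ⟨((P : ℕ) : ℂ)⁻¹ • (heckeOp L 2 P g - h), ?_⟩
  apply eq_of_qCoeff_eq
  intro n
  rw [qCoeff_inc, qCoeff_vee, qCoeff_smul, qCoeff_sub, qCoeff_heckeOp_two]
  have h1 : qCoeff ⇑g ((P : ℕ) * n) = qCoeff ⇑h n := by
    have := congrArg (fun F : CuspForm (Gamma0 N) 2 => qCoeff ⇑F ((P : ℕ) * n)) hgh
    simp only [qCoeff_inc, qCoeff_vee, dvd_mul_right, if_true,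
      Nat.mul_div_cancel_left _ hq.pos] at this
    exact this
  simp only [h1, if_neg hqL]
  field_simp
  ring

/-- **Independence**: `g(z) = h(qz)` with `g`, `h` of level `L`, `q ∤ L`, only for `g = h = 0`. -/
theorem eq_zero_of_inc_eq_vee (hq : q.Prime) (hN : N = q * L) (hqL : ¬ q ∣ L)
    {g h : CuspForm (Gamma0 L) 2} (hgh : inc hN g = vee hq hN h) : g = 0 := by
  let S : Submodule ℂ (CuspForm (Gamma0 L) 2) :=
    (LinearMap.range (vee (L := L) hq hN)).comap (inc hN)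
  have hS : ∀ x, x ∈ S ↔ ∃ y, inc hN x = vee hq hN y := by
    intro x
    rw [Submodule.mem_comap, LinearMap.mem_range]
    exact ⟨fun ⟨y, hy⟩ => ⟨y, hy.symm⟩, fun ⟨y, hy⟩ => ⟨y, hy.symm⟩⟩
  have hinc : Function.Injective (inc (L := L) hN) := restr_injective _
  have hvee : Function.Injective (vee (L := L) hq hN) := vee_injective hq hN
  -- `V(S) ⊆ S`, hence equality
  have hle : S.map (vee hq hN) ≤ S.map (inc hN) := by
    rintro _ ⟨x, hx, rfl⟩
    obtain ⟨y, hy⟩ := (hS x).mp hx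
    obtain ⟨g₁, hg₁⟩ := exists_inc_eq_vee hq hN hqL hy
    exact ⟨g₁, (hS g₁).mpr ⟨x, hg₁⟩, hg₁⟩
  have hfin : Module.Finite ℂ (CuspForm (Gamma0 L) 2) := inferInstance
  have heq : S.map (vee hq hN) = S.map (inc hN) := by
    refine Submodule.eq_of_le_of_finrank_eq hle ?_
    rw [LinearEquiv.finrank_eq (Submodule.equivMapOfInjective _ hvee S).symm,
      LinearEquiv.finrank_eq (Submodule.equivMapOfInjective _ hinc S).symm]
  have hstep : ∀ x ∈ S, ∃ y ∈ S, inc hN x = vee hq hN y := by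
    intro x hx
    have h1 : inc hN x ∈ S.map (vee hq hN) := by
      rw [heq]
      exact ⟨x, hx, rfl⟩
    obtain ⟨y, hy, hxy⟩ := h1
    exact ⟨y, hy, hxy.symm⟩
  have key : ∀ k : ℕ, ∀ x ∈ S, ∀ n : ℕ, ¬ q ^ k ∣ n → qCoeff ⇑x n = 0 := by
    intro k
    induction k with
    | zero => exact fun x _ n hn => absurd (by rw [pow_zero]; exact one_dvd n) hn
    | succ k ih =>
      intro x hx n hn
      obtain ⟨y, hy, hxy⟩ := hstep x hx
      have h1 := congrArg (fun F : CuspForm (Gamma0 N) 2 => qCoeff ⇑F n) hxy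
      simp only [qCoeff_inc, qCoeff_vee] at h1
      rw [h1]
      split_ifs with h2
      · obtain ⟨m, rfl⟩ := h2
        rw [Nat.mul_div_cancel_left _ hq.pos]
        refine ih y hy m fun h3 => hn ?_
        rw [pow_succ, mul_comm]
        exact mul_dvd_mul_left q h3
      · rfl
  apply eq_of_qCoeff_eq
  intro n
  rw [qCoeff_zero]
  rcases Nat.eq_zero_or_pos n with rfl | hn
  · exact qCoeff_at_zero g
  · exact key n g ((hS g).mpr ⟨h, hgh⟩) n fun hd =>
      absurd (Nat.le_of_dvd hn hd) (not_le.mpr (Nat.lt_pow_self hq.one_lt))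

/-- `(g, h) ↦ g(z) + h(qz)` -/
def oldMap (hq : q.Prime) (hN : N = q * L) :
    (CuspForm (Gamma0 L) 2 × CuspForm (Gamma0 L) 2) →ₗ[ℂ] CuspForm (Gamma0 N) 2 :=
  (inc hN).coprod (vee hq hN)

omit [NeZero L] in
theorem oldMap_apply (hq : q.Prime) (hN : N = q * L)
    (x : CuspForm (Gamma0 L) 2 × CuspForm (Gamma0 L) 2) :
    oldMap hq hN x = inc hN x.1 + vee hq hN x.2 := rfl

/-- **The degeneracy map is injective.** -/
theorem oldMap_injective (hq : q.Prime) (hN : N = q * L) (hqL : ¬ q ∣ L) :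
    Function.Injective (oldMap (L := L) hq hN) := by
  rw [injective_iff_map_eq_zero]
  rintro ⟨g, h⟩ hx
  rw [oldMap_apply] at hx
  have h1 : inc hN g = vee hq hN (-h) := by
    rw [map_neg]
    exact eq_neg_of_add_eq_zero_left hx
  have hg := eq_zero_of_inc_eq_vee hq hN hqL h1
  subst hg
  rw [map_zero] at h1
  have h2 := vee_injective hq hN (h1.symm.trans (map_zero _).symm)
  rw [neg_eq_zero] at h2
  rw [h2]
  rfl

/-- the old subspace -/
def oldSub (hq : q.Prime) (hN : N = q * L) : Submodule ℂ (CuspForm (Gamma0 N) 2) :=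
  LinearMap.range (oldMap hq hN)

theorem finrank_oldSub (hq : q.Prime) (hN : N = q * L) (hqL : ¬ q ∣ L) :
    Module.finrank ℂ (oldSub (L := L) hq hN) =
      2 * Module.finrank ℂ (CuspForm (Gamma0 L) 2) := by
  rw [oldSub, LinearMap.finrank_range_of_inj (oldMap_injective hq hN hqL), Module.finrank_prod,
    two_mul]

/-- The old subspace has at most the dimension of the whole space. -/
theorem two_mul_finrank_le (hq : q.Prime) (hN : N = q * L) (hqL : ¬ q ∣ L) :
    2 * Module.finrank ℂ (CuspForm (Gamma0 L) 2) ≤ Module.finrank ℂ (CuspForm (Gamma0 N) 2) := by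
  rw [← finrank_oldSub hq hN hqL]
  exact Submodule.finrank_le _

/-- Hecke operators at the primes `≠ q` and the degeneracy map -/
theorem heckeOp_oldMap (hq : q.Prime) (hN : N = q * L) (p : Nat.Primes) (hpq : (p : ℕ) ≠ q)
    (x : CuspForm (Gamma0 L) 2 × CuspForm (Gamma0 L) 2) :
    heckeOp N 2 p (oldMap hq hN x) =
      oldMap hq hN (heckeOp L 2 p x.1, heckeOp L 2 p x.2) := by
  rw [oldMap_apply, oldMap_apply, map_add, heckeOp_V 2 hq hN p hpq, heckeOp_restr _ p]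
  intro h
  rw [hN] at h
  rcases p.2.dvd_mul.mp h with h1 | h1
  · exact absurd ((Nat.prime_dvd_prime_iff_eq p.2 hq).mp h1) hpq
  · exact h1

theorem heckeOp_mem_oldSub (hq : q.Prime) (hN : N = q * L) (p : Nat.Primes) (hpq : (p : ℕ) ≠ q) :
    oldSub (L := L) hq hN ≤ (oldSub hq hN).comap (heckeOp N 2 p) := by
  rintro _ ⟨x, rfl⟩
  rw [Submodule.mem_comap, heckeOp_oldMap hq hN p hpq]
  exact ⟨_, rfl⟩

/-- **An eigenform in the old subspace comes from level `L`**, with the same coefficients at all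
primes `≠ q`. -/
theorem exists_of_mem_oldSub (hq : q.Prime) (hN : N = q * L) (hqL : ¬ q ∣ L)
    {f : CuspForm (Gamma0 N) 2} (hf : f.IsNormalizedEigenform) (hmem : f ∈ oldSub (L := L) hq hN) :
    ∃ g : CuspForm (Gamma0 L) 2, g.IsNormalizedEigenform ∧
      ∀ p : ℕ, p.Prime → p ≠ q → qCoeff ⇑g p = qCoeff ⇑f p := by
  obtain ⟨x, hx⟩ := hmem
  have hinj := oldMap_injective (L := L) hq hN hqL
  have hx0 : x ≠ 0 := by
    rintro rfl
    rw [map_zero] at hx
    exact hf.ne_zero hx.symm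
  have hT : ∀ p : Nat.Primes, (p : ℕ) ≠ q → heckeOp L 2 p x.1 = qCoeff ⇑f p • x.1 ∧
      heckeOp L 2 p x.2 = qCoeff ⇑f p • x.2 := by
    intro p hpq
    have h1 := heckeOp_eq_of_isNormalizedEigenform hf p
    rw [← hx, heckeOp_oldMap hq hN p hpq, ← map_smul] at h1
    have h2 := hinj h1
    rw [hx] at h2
    exact ⟨congrArg Prod.fst h2, congrArg Prod.snd h2⟩
  have hy : ∃ y : CuspForm (Gamma0 L) 2, y ≠ 0 ∧ ∀ p : Nat.Primes, (p : ℕ) ≠ q →
      heckeOp L 2 p y = qCoeff ⇑f p • y := by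
    by_cases h1 : x.1 = 0
    · refine ⟨x.2, fun h2 => hx0 (Prod.ext h1 h2), fun p hp => (hT p hp).2⟩
    · exact ⟨x.1, h1, fun p hp => (hT p hp).1⟩
  obtain ⟨y, hy0, hy⟩ := hy
  obtain ⟨g, hg, hg2⟩ := exists_eigenform_of_joint {p : Nat.Primes | (p : ℕ) ≠ q}
    (fun p => qCoeff ⇑f p) y hy0 hy
  exact ⟨g, hg, fun p hp hpq => hg2 ⟨p, hp⟩ hpq⟩

/-- **Old or new.** -/
theorem exists_old_or_new (hq : q.Prime) (hN : N = q * L) (hqL : ¬ q ∣ L) {d : ℕ} (hd : d ≠ 0)
    {g : Fin d → CuspForm (Gamma0 N) 2} (hg : ∀ i, (g i).IsNewform) {ℓ : Nat.Primes}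
    (hℓ : (ℓ : ℕ) ≠ q) (hinj : Function.Injective fun i => qCoeff ⇑(g i) ℓ)
    (hdim : Module.finrank ℂ (CuspForm (Gamma0 N) 2) =
      2 * Module.finrank ℂ (CuspForm (Gamma0 L) 2) + d)
    {f : CuspForm (Gamma0 N) 2} (hf : f.IsNormalizedEigenform) :
    (∃ g' : CuspForm (Gamma0 L) 2, g'.IsNormalizedEigenform ∧
      ∀ p : ℕ, p.Prime → p ≠ q → qCoeff ⇑g' p = qCoeff ⇑f p) ∨
    ∃ i, ∀ p : ℕ, p.Prime → p ≠ q → qCoeff ⇑f p = qCoeff ⇑(g i) p := by
  classical
  by_cases hmem : f ∈ oldSub (L := L) hq hN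
  · exact Or.inl (exists_of_mem_oldSub hq hN hqL hf hmem)
  right
  set O := oldSub (L := L) hq hN with hO
  let T : ∀ p : Nat.Primes, (p : ℕ) ≠ q → Module.End ℂ (CuspForm (Gamma0 N) 2 ⧸ O) :=
    fun p hp => O.mapQ O (heckeOp N 2 p) (heckeOp_mem_oldSub hq hN p hp)
  have hT : ∀ p hp x, T p hp (O.mkQ x) = O.mkQ (heckeOp N 2 p x) := fun p hp x => rfl
  have heig : ∀ {x : CuspForm (Gamma0 N) 2}, x.IsNormalizedEigenform → ∀ p hp,
      T p hp (O.mkQ x) = qCoeff ⇑x p • O.mkQ x := by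
    intro x hx p hp
    rw [hT p hp, heckeOp_eq_of_isNormalizedEigenform hx p, map_smul]
  have hg0 : ∀ i, O.mkQ (g i) ≠ 0 := by
    intro i h0
    rw [Submodule.mkQ_apply, Submodule.Quotient.mk_eq_zero] at h0
    obtain ⟨g', hg', h1⟩ := exists_of_mem_oldSub hq hN hqL (hg i).1 h0
    have hL : L ∣ N := Dvd.intro_left q hN.symm
    have hne : L ≠ N := by
      rw [hN]
      intro h
      have h2 : 1 < q := hq.one_lt
      have h3 : 0 < L := Nat.pos_of_ne_zero (NeZero.ne L)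
      nlinarith
    refine (hg i).2 L hL hne ⟨g', hg', fun p hp hpN => h1 p hp ?_⟩
    rintro rfl
    exact hpN (Dvd.intro L hN.symm)
  have hli : LinearIndependent ℂ fun i => O.mkQ (g i) :=
    Module.End.eigenvectors_linearIndependent' (T ℓ hℓ) _ hinj _ fun i =>
      ⟨Module.End.mem_eigenspace_iff.mpr (heig (hg i).1 ℓ hℓ), hg0 i⟩
  have hfr : Module.finrank ℂ (CuspForm (Gamma0 N) 2 ⧸ O) = d := by
    have h1 := Submodule.finrank_quotient_add_finrank O
    rw [hO, finrank_oldSub hq hN hqL, ← hO] at h1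
    omega
  have : Nonempty (Fin d) := ⟨⟨0, Nat.pos_of_ne_zero hd⟩⟩
  let b := basisOfLinearIndependentOfCardEqFinrank hli (by rw [Fintype.card_fin, hfr])
  have hb : ∀ i, b i = O.mkQ (g i) := fun i => by simp [b]
  -- the coordinates of `f`
  have hco : ∀ (p : Nat.Primes), (p : ℕ) ≠ q → ∀ i,
      (qCoeff ⇑f p - qCoeff ⇑(g i) p) * b.repr (O.mkQ f) i = 0 := by
    intro p hp i
    have h2 : T p hp (O.mkQ f) = ∑ j, (b.repr (O.mkQ f) j * qCoeff ⇑(g j) p) • b j := by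
      conv_lhs => rw [← b.sum_repr (O.mkQ f)]
      rw [map_sum]
      refine Finset.sum_congr rfl fun j _ => ?_
      rw [map_smul, hb, heig (hg j).1 p hp, smul_smul]
    rw [heig hf p hp] at h2
    have h3 := congrArg (fun y => b.repr y i) h2
    simp only [map_smul, Finsupp.smul_apply, smul_eq_mul, map_sum, b.repr_self,
      Finsupp.coe_finsetSum, Finset.sum_apply, Finsupp.smul_single, mul_one,
      Finsupp.single_apply, Finset.sum_ite_eq', Finset.mem_univ, if_true] at h3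
    linear_combination h3
  obtain ⟨i, hi⟩ : ∃ i, b.repr (O.mkQ f) i ≠ 0 := by
    by_contra h
    push Not at h
    have h1 : O.mkQ f = 0 := by
      rw [← b.sum_repr (O.mkQ f)]
      exact Finset.sum_eq_zero fun i _ => by rw [h i, zero_smul]
    rw [Submodule.mkQ_apply, Submodule.Quotient.mk_eq_zero] at h1
    exact hmem h1
  exact ⟨i, fun p hp hpq =>
    sub_eq_zero.mp ((mul_eq_zero.mp (hco ⟨p, hp⟩ hpq i)).resolve_right hi)⟩

end Fermat.Agent.Cor.K4S
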