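import Fermat.Agent.Corollaries.K4S.FreyFive
import Fermat.Agent.Corollaries.K4S.OldNew
import Fermat.Agent.Corollaries.K4S.Curves2
import Fermat.Agent.Corollaries.K4S.Final

/-!
# The levels `46`, `58`, `106`, `118`

If the new part of `S₂(Γ₀(2 L))` is spanned by newforms whose third or fifth coefficient is a rational
integer which is not congruent to the values of a Frey curve, the level `2 L` is not the level of a
Frey triple: the forms of level `L` are excluded by the ramification at `2`.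
-/

set_option autoImplicit false

open CuspForm ModularFormClass CongruenceSubgroup WeierstrassCurve

namespace Fermat.Agent.Cor

open Fermat.Agent.ECRed

/-- **Exclusion of the level `2 L`.** -/
theorem noTriple_of_new {p : ℕ} (hp : p.Prime) (h7 : 7 ≤ p) {N L : ℕ} [NeZero N] [NeZero L]
    (hN : N = 2 * L) (hL : ¬ 2 ∣ L) (h3N : ¬ 3 ∣ N) (h5N : ¬ 5 ∣ N) {d : ℕ} (hd : d ≠ 0)
    {g : Fin d → CuspForm (Gamma0 N) 2} (hg : ∀ i, (g i).IsNewform) {ℓ : Nat.Primes}
    (hℓ : (ℓ : ℕ) ≠ 2) (hinj : Function.Injective fun i => qCoeff ⇑(g i) ℓ)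
    (hdim : Module.finrank ℂ (CuspForm (Gamma0 N) 2) =
      2 * Module.finrank ℂ (CuspForm (Gamma0 L) 2) + d)
    (hex : ∀ i, (∃ v : ℤ, qCoeff ⇑(g i) 3 = (v : ℂ) ∧ ¬ (p : ℤ) ∣ v * (v - 4) * (v + 4)) ∨
      ∃ v : ℤ, qCoeff ⇑(g i) 5 = (v : ℂ) ∧
        ¬ (p : ℤ) ∣ (v - 2) * (v + 2) * (v - 6) * (v + 6)) : NoTriple p N := by
  have : Fact p.Prime := ⟨hp⟩
  refine noTriple_of fun A B C h he => ?_
  have hirr := h.irreducible hp (by omega)
  have hres := freyMod hp (by omega) A B C h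
  have hser : serreLevel (fA A B) p = N := by
    rw [serreLevel, h.level hp (by omega), he]
  have h2 := (prime_dvd_serreLevel_iff (p := p) h.Δ_ne_zero Nat.prime_two).mp (by
    rw [hser, hN]
    exact dvd_mul_right 2 L)
  rw [he] at hres
  obtain ⟨f, 𝔪, hf, h𝔪, hp𝔪, hcong⟩ := hres
  have hN0 : N ≠ 0 := NeZero.ne N
  rcases K4S.exists_old_or_new Nat.prime_two hN hL hd hg hℓ hinj hdim hf with
    ⟨g', hg', hold⟩ | ⟨i, hnew⟩
  · -- the form comes from level `L`
    have hres' : (fA A B).IsResiduallyModularOfLevel p L := by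
      refine ⟨g', 𝔪, hg', h𝔪, hp𝔪, fun q hq hgood hqL hqp => ?_⟩
      have hq2 : q ≠ 2 := by
        rintro rfl
        exact hgood h2.1
      have hqN : ¬ q ∣ N := by
        rw [hN]
        intro h'
        rcases hq.dvd_mul.mp h' with h1 | h1
        · exact hq2 ((Nat.prime_dvd_prime_iff_eq hq Nat.prime_two).mp h1)
        · exact hqL h1
      obtain ⟨a, ha, ha'⟩ := hcong q hq hgood hqN hqp
      exact ⟨a, by rw [ha, hold q hq hq2], ha'⟩
    have hmult : IsMultAt (fA A B) 2 :=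
      ⟨Nat.prime_two, h2.1, h.isSemistableModel 2 Nat.prime_two h2.1, h.Δ_ne_zero⟩
    exact hL (dvd_of_resMod (by omega) hirr (NeZero.ne L) hres' hmult (by omega) h2.2)
  · rcases hex i with ⟨v, hv, hv'⟩ | ⟨v, hv, hv'⟩
    · obtain ⟨a, ha, ha'⟩ := coeff_three_given h hp (by omega) hN0 hf h𝔪 hp𝔪 hcong h3N
      refine hv' (K4S.dvd_of_mem h𝔪 hp hp𝔪 (ha.trans ?_) ha')
      rw [hnew 3 Nat.prime_three (by norm_num), hv]
    · obtain ⟨a, ha, ha'⟩ := coeff_five_given h hp (by omega) hN0 hf h𝔪 hp𝔪 hcong h5N (by omega)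
      rw [hnew 5 Nat.prime_five (by norm_num), hv] at ha
      have hav : a = (v : integralClosure ℤ ℂ) := by
        apply Subtype.ext
        rw [ha]
        simp
      subst hav
      apply hv'
      have hcast : ∀ w : ℤ, (w : integralClosure ℤ ℂ) ∈ 𝔪 → (p : ℤ) ∣ w := fun w hw =>
        K4S.dvd_of_cast_mem h𝔪.ne_top hp hp𝔪 hw
      rcases ha' with h1 | h1 | h1 | h1
      · exact ((hcast (v - 2) (by push_cast; exact h1)).mul_right _).mul_right _ |>.mul_right _
      · exact ((hcast (v + 2) (by push_cast; exact h1)).mul_left _).mul_right _ |>.mul_right _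
      · exact ((hcast (v - 6) (by push_cast; exact h1)).mul_left _).mul_right _
      · exact (hcast (v + 6) (by push_cast; exact h1)).mul_left _

theorem K4S.dim_eq {N g : ℕ} [NeZero N] (h : genus12 N = 12 * g) :
    Module.finrank ℂ (CuspForm (Gamma0 N) 2) = g := by
  have h1 := finrank_eq N
  rw [h] at h1
  omega

theorem K4S.dvd_240 {p : ℕ} (hp : p.Prime) (h7 : 7 ≤ p) :
    ¬ (p : ℤ) ∣ (4 - 2) * (4 + 2) * (4 - 6) * (4 + 6) := by
  intro h
  have h1 : (p : ℤ) ∣ ((240 : ℕ) : ℤ) := by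
    rw [← Int.dvd_neg]
    exact h.trans (by norm_num)
  have h2 : p ∣ 2 ^ 4 * 3 * 5 := by exact_mod_cast h1
  rcases hp.dvd_mul.mp h2 with h3 | h3
  · rcases hp.dvd_mul.mp h3 with h4 | h4
    · have := Nat.le_of_dvd (by norm_num) (hp.dvd_of_dvd_pow h4)
      omega
    · have := Nat.le_of_dvd (by norm_num) h4
      omega
  · have := Nat.le_of_dvd (by norm_num) h3
    omega

theorem K4S.not_dvd_two {p : ℕ} (hp : Nat.Prime p) (h7 : 7 ≤ p) : ¬ (p : ℤ) ∣ 2 * (2 - 4) * (2 + 4) := by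
  refine not_dvd_of_small hp 3 (by omega) (m := 2 ^ 3 * 3) (by norm_num) ?_
  intro q hq h
  rcases (hq.dvd_mul).mp h with h1 | h1
  · exact (Nat.le_of_dvd (by norm_num) (hq.dvd_of_dvd_pow h1)).trans (by norm_num)
  · exact Nat.le_of_dvd (by norm_num) h1

variable {p : ℕ}

theorem noTriple_46 (hp : p.Prime) (h7 : 7 ≤ p) : NoTriple p 46 := by
  obtain ⟨a, ha, -, ha5⟩ := K4S.newform46
  refine noTriple_of_new hp h7 (N := 46) (L := 23) rfl (by norm_num) (by norm_num) (by norm_num)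
    (d := 1) one_ne_zero (g := ![a]) (fun i => by fin_cases i; exact ha)
    (ℓ := ⟨3, Nat.prime_three⟩) (by decide) (Function.injective_of_subsingleton _)
    (by rw [K4S.dim_eq (N := 46) (g := 5) (by decide +kernel), K4S.dim_eq (N := 23) (g := 2) (by decide +kernel)])
    (fun i => ?_)
  fin_cases i
  exact Or.inr ⟨4, by simpa using ha5, K4S.dvd_240 hp h7⟩

theorem K4S.not_dvd_135 {p : ℕ} (hp : p.Prime) (h7 : 7 ≤ p) :
    ¬ (p : ℤ) ∣ (-3 - 2) * (-3 + 2) * (-3 - 6) * (-3 + 6) := by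
  intro h
  have h1 : (p : ℤ) ∣ ((135 : ℕ) : ℤ) := by
    rw [← Int.dvd_neg]
    exact h.trans (by norm_num)
  have h2 : p ∣ 3 ^ 3 * 5 := by exact_mod_cast h1
  rcases hp.dvd_mul.mp h2 with h3 | h3
  · have := Nat.le_of_dvd (by norm_num) (hp.dvd_of_dvd_pow h3)
    omega
  · have := Nat.le_of_dvd (by norm_num) h3
    omega

theorem noTriple_58 (hp : p.Prime) (h7 : 7 ≤ p) : NoTriple p 58 := by
  obtain ⟨a, ha, ha3, ha5⟩ := K4S.newform58a
  obtain ⟨b, hb, hb3, -⟩ := K4S.newform58b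
  refine noTriple_of_new hp h7 (N := 58) (L := 29) rfl (by norm_num) (by norm_num)
    (by norm_num) (d := 2) two_ne_zero (g := ![a, b])
    (fun i => by fin_cases i; exacts [ha, hb])
    (ℓ := ⟨3, Nat.prime_three⟩) (by decide) ?_
    (by rw [K4S.dim_eq (N := 58) (g := 6) (by decide +kernel), K4S.dim_eq (N := 29) (g := 2) (by decide +kernel)])
    (fun i => ?_)
  · intro i j h
    fin_cases i <;> fin_cases j <;> simp [ha3, hb3] at h ⊢
  · fin_cases i
    · exact Or.inr ⟨-3, by simpa using ha5, K4S.not_dvd_135 hp h7⟩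
    · exact Or.inl ⟨-1, by simpa using hb3, not_dvd_neg_one hp h7⟩

theorem noTriple_106 (hp : p.Prime) (h7 : 7 ≤ p) : NoTriple p 106 := by
  obtain ⟨a, ha, ha3, -⟩ := K4S.newform106a
  obtain ⟨b, hb, hb3, -⟩ := K4S.newform106b
  obtain ⟨c, hc, hc3, -⟩ := K4S.newform106c
  obtain ⟨e, he, he3, -⟩ := K4S.newform106d
  refine noTriple_of_new hp h7 (N := 106) (L := 53) rfl (by norm_num) (by norm_num)
    (by norm_num) (d := 4) four_ne_zero (g := ![a, b, c, e])
    (fun i => by fin_cases i; exacts [ha, hb, hc, he])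
    (ℓ := ⟨3, Nat.prime_three⟩) (by decide) ?_
    (by rw [K4S.dim_eq (N := 106) (g := 12) (by decide +kernel), K4S.dim_eq (N := 53) (g := 4) (by decide +kernel)])
    (fun i => ?_)
  · intro i j h
    fin_cases i <;> fin_cases j <;> simp [ha3, hb3, hc3, he3] at h ⊢ <;> norm_num at h
  · fin_cases i
    · exact Or.inl ⟨-2, by simpa using ha3, not_dvd_neg_two hp (by omega)⟩
    · exact Or.inl ⟨-1, by simpa using hb3, not_dvd_neg_one hp h7⟩
    · exact Or.inl ⟨1, by simpa using hc3, not_dvd_one hp h7⟩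
    · exact Or.inl ⟨2, by simpa using he3, K4S.not_dvd_two hp h7⟩

theorem noTriple_118 (hp : p.Prime) (h7 : 7 ≤ p) : NoTriple p 118 := by
  obtain ⟨a, ha, ha3, ha5⟩ := K4S.newform118a
  obtain ⟨b, hb, hb3, hb5⟩ := K4S.newform118b
  obtain ⟨c, hc, hc3, hc5⟩ := K4S.newform118c
  obtain ⟨e, he, he3, he5⟩ := K4S.newform118d
  refine noTriple_of_new hp h7 (N := 118) (L := 59) rfl (by norm_num) (by norm_num)
    (by norm_num) (d := 4) four_ne_zero (g := ![a, b, c, e])
    (fun i => by fin_cases i; exacts [ha, hb, hc, he])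
    (ℓ := ⟨5, Nat.prime_five⟩) (by decide) ?_
    (by rw [K4S.dim_eq (N := 118) (g := 14) (by decide +kernel), K4S.dim_eq (N := 59) (g := 5) (by decide +kernel)])
    (fun i => ?_)
  · intro i j h
    fin_cases i <;> fin_cases j <;> simp [ha5, hb5, hc5, he5] at h ⊢ <;> norm_num at h
  · fin_cases i
    · exact Or.inl ⟨-1, by simpa using ha3, not_dvd_neg_one hp h7⟩
    · exact Or.inl ⟨2, by simpa using hb3, K4S.not_dvd_two hp h7⟩
    · exact Or.inl ⟨-1, by simpa using hc3, not_dvd_neg_one hp h7⟩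
    · exact Or.inl ⟨2, by simpa using he3, K4S.not_dvd_two hp h7⟩

end Fermat.Agent.Cor
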