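import Fermat.Agent.Ribet.CongBad
import Fermat.Agent.EC.MultFrob
import Fermat.Agent.S29
import Fermat.Prelude.Def_FLTPrelim_ModularRep

/-!
# The coefficient of a congruent form at a prime of multiplicative reduction

`W` residually modular at `p` of level `M`, `ℓ` a prime not dividing `M p`: the `ℓ`-th coefficient of
the form is the trace of a Frobenius on `W[p]`, that is `a_ℓ(W)` if `W` has good reduction at `ℓ` and
`± (ℓ + 1)` if `W` has multiplicative reduction at `ℓ`.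
-/

set_option autoImplicit false
set_option linter.style.haveILetI false

noncomputable section

namespace Fermat.Agent.Cor

open Polynomial WeierstrassCurve WeierstrassCurve.Affine WeierstrassCurve.Affine.Point
open Fermat.Agent Fermat.Agent.ECFrob Fermat.Agent.Torsion Fermat.Agent.ECRed Fermat.Agent.Ribet
open ModularFormClass

variable {W : WeierstrassCurve ℤ} {p : ℕ} [hp : Fact p.Prime]

/-- If a representation `ρ` is attached to `g` and the coefficients of `g` agree with those of `W`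
outside a finite set, then `ρ` and `W[p]` have the same traces, on the whole Galois group. -/
theorem trace_eq_trace_of_attached {N : ℕ} (hN : N ≠ 0)
    {g : CuspForm (CongruenceSubgroup.Gamma0 N) 2}
    (hΔ : W.Δ ≠ 0) {k : Type} [Field k] [CharP k p]
    (φ : integralClosure ℤ ℂ →+* k) (ρ : ResidualGaloisRep k) (hρ : ρ.IsAttachedTo g φ)
    {S : Set ℕ} (hS : S.Finite)
    (hcong : ∀ ℓ : ℕ, ℓ.Prime → ℓ ∉ S → W.IsGoodPrimeFor ℓ → ∀ x : integralClosure ℤ ℂ,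
      (x : ℂ) = qCoeff g ℓ → φ x = ((W.apOfModel ℓ : ℤ) : k))
    (σ : AlgebraicClosure ℚ ≃ₐ[ℚ] AlgebraicClosure ℚ) :
    LinearMap.trace k ρ.V (ρ.ρ σ) =
      ZMod.castHom (dvd_refl p) k (LinearMap.trace (ZMod p) _ (rho W p σ)) := by
  have hcast : ∀ q : ℕ, q.Prime → q ≠ p → ((q : ℕ) : k) ≠ 0 := by
    intro q hq hqp h0
    rw [CharP.cast_eq_zero_iff k p] at h0
    exact hqp ((Nat.prime_dvd_prime_iff_eq hp.out hq).mp h0).symm
  obtain ⟨L₁, hL₁, h₁⟩ := galoisRep_factors (map_Δ_ne_zero hΔ) hp.out.ne_zero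
  obtain ⟨L₂, hL₂, h₂⟩ := ρ.factorsThroughFiniteLevel
  haveI := hL₁
  haveI := hL₂
  haveI : FiniteDimensional ℚ (L₁ ⊔ L₂ : IntermediateField ℚ _) :=
    IntermediateField.finiteDimensional_sup _ _
  have hfact : ∀ {M : Type} [Monoid M] (r : (AlgebraicClosure ℚ ≃ₐ[ℚ] AlgebraicClosure ℚ) →* M)
      (L : IntermediateField ℚ (AlgebraicClosure ℚ)), L ≤ L₁ ⊔ L₂ →
      (∀ σ : AlgebraicClosure ℚ ≃ₐ[ℚ] AlgebraicClosure ℚ, (∀ x ∈ L, σ x = x) → r σ = 1) →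
      ∀ σ τ : AlgebraicClosure ℚ ≃ₐ[ℚ] AlgebraicClosure ℚ,
      (∀ x ∈ (L₁ ⊔ L₂ : IntermediateField ℚ _), σ x = τ x) → r σ = r τ := by
    intro M _ r L hle hr σ τ h
    have h2 : r (τ⁻¹ * σ) = 1 := by
      apply hr
      intro x hx
      show τ.symm (σ x) = x
      rw [h x (hle hx), τ.symm_apply_apply]
    rw [_root_.map_mul] at h2
    have h4 : r τ * r τ⁻¹ = 1 := by
      rw [← _root_.map_mul, mul_inv_cancel, _root_.map_one]
    calc r σ = (r τ * r τ⁻¹) * r σ := by rw [h4, one_mul]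
      _ = r τ := by rw [mul_assoc, h2, mul_one]
  have hS' : (S ∪ {p} ∪ {q | q ∣ N} ∪ {q | (q : ℤ) ∣ W.Δ} : Set ℕ).Finite := by
    refine Set.Finite.union (Set.Finite.union (hS.union (Set.finite_singleton p)) ?_) ?_
    · refine (Finset.finite_toSet (N.divisors)).subset fun ℓ hℓ => ?_
      rw [Finset.mem_coe, Nat.mem_divisors]
      exact ⟨hℓ, hN⟩
    · refine (Finset.finite_toSet (W.Δ.natAbs.divisors)).subset fun ℓ hℓ => ?_
      rw [Finset.mem_coe, Nat.mem_divisors]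
      exact ⟨Int.natCast_dvd.mp hℓ, Int.natAbs_ne_zero.mpr hΔ⟩
  obtain ⟨q, hq, hqS, B, hB, ψ, hψ, m, m', hm, hm'⟩ :=
    FrobDensity.exists_frobenius_on (L₁ ⊔ L₂) σ _ hS'
  simp only [Set.mem_union, Set.mem_ofPred_eq, Set.mem_singleton_iff, not_or] at hqS
  obtain ⟨⟨⟨hq1, hq2⟩, hq3⟩, hq4⟩ := hqS
  haveI : Fact q.Prime := ⟨hq⟩
  have e1 : rho W p σ = (rho W p ψ) ^ m' := by
    rw [← map_pow]
    exact hfact (rho W p) L₁ le_sup_left (fun τ hτ => h₁ τ hτ) _ _ hm'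
  have e2 : ρ.ρ σ = (ρ.ρ ψ) ^ m' := by
    rw [← map_pow]
    exact hfact ρ.ρ L₂ le_sup_right h₂ _ _ hm'
  obtain ⟨y, hy, hy'⟩ := hρ q hq hq3 (hcast q hq hq2) B hB ψ hψ
  obtain ⟨ty, dy⟩ := trace_det_of_charpoly' ρ.finrank_eq _ _ _ hy'
  have hyW := hcong q hq hq1 hq4 y hy
  have t1 : LinearMap.trace k ρ.V (ρ.ρ σ) = lucas ((W.apOfModel q : ℤ) : k) (q : k) m' := by
    rw [e2, trace_pow_eq_lucas ρ.finrank_eq, ty, dy, hyW]
  have t2 : LinearMap.trace (ZMod p) _ (rho W p σ) =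
      lucas ((W.apOfModel q : ℤ) : ZMod p) (q : ZMod p) m' := by
    rw [e1, trace_pow_eq_lucas (finrank_rat hΔ),
      trace_rho_frobenius hq4 hB hψ hq2, det_rho_frobenius hq4 hB hψ hq2]
  rw [t1, t2, map_lucas, map_intCast, map_natCast]

/-- If a representation is attached to `g` and the coefficients of `g` agree with those of `W`
outside a finite set, then at every prime `ℓ` which does not divide `N p` the coefficient of `g` is
the trace of Frobenius on `W[p]`, also if `W` has bad reduction at `ℓ`. -/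
theorem coeff_eq_trace_of_attached {N : ℕ} (hN : N ≠ 0)
    {g : CuspForm (CongruenceSubgroup.Gamma0 N) 2}
    (hΔ : W.Δ ≠ 0) {k : Type} [Field k] [CharP k p]
    (φ : integralClosure ℤ ℂ →+* k) (ρ : ResidualGaloisRep k) (hρ : ρ.IsAttachedTo g φ)
    {S : Set ℕ} (hS : S.Finite)
    (hcong : ∀ ℓ : ℕ, ℓ.Prime → ℓ ∉ S → W.IsGoodPrimeFor ℓ → ∀ x : integralClosure ℤ ℂ,
      (x : ℂ) = qCoeff g ℓ → φ x = ((W.apOfModel ℓ : ℤ) : k))
    {ℓ : ℕ} (hℓ : ℓ.Prime) (hℓN : ¬ ℓ ∣ N) (hℓp : ℓ ≠ p)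
    {A : ValuationSubring (AlgebraicClosure ℚ)} (hA : A.LiesOverPrime ℓ)
    {σ : AlgebraicClosure ℚ ≃ₐ[ℚ] AlgebraicClosure ℚ} (hσ : A.IsFrobeniusAt σ ℓ) :
    ∃ x : integralClosure ℤ ℂ, (x : ℂ) = qCoeff g ℓ ∧
      φ x = ZMod.castHom (dvd_refl p) k (LinearMap.trace (ZMod p) _ (rho W p σ)) := by
  have hcast : ((ℓ : ℕ) : k) ≠ 0 := by
    intro h0
    rw [CharP.cast_eq_zero_iff k p] at h0
    exact hℓp ((Nat.prime_dvd_prime_iff_eq hp.out hℓ).mp h0).symm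
  obtain ⟨x, hx, hx'⟩ := hρ ℓ hℓ hℓN hcast A hA σ hσ
  obtain ⟨tx, dx⟩ := trace_det_of_charpoly' ρ.finrank_eq _ _ _ hx'
  exact ⟨x, hx, by rw [← tx]; exact trace_eq_trace_of_attached hN hΔ φ ρ hρ hS hcong σ⟩

/-- **The trace of a Frobenius at a prime `q ≠ p` of multiplicative reduction on `W[p]`** is
`± (q + 1)`. -/
theorem trace_rho_frobenius_mult {q : ℕ} (hW : IsMultAt W q) (hne : q ≠ p) (hp2 : p ≠ 2)
    {A : ValuationSubring (AlgebraicClosure ℚ)} (hA : A.LiesOverPrime q)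
    {σ : AlgebraicClosure ℚ ≃ₐ[ℚ] AlgebraicClosure ℚ} (hσ : A.IsFrobeniusAt σ q) :
    ∃ t : ℤ, (t = (q + 1 : ℤ) ∨ t = -(q + 1 : ℤ)) ∧
      LinearMap.trace (ZMod p) _ (rho W p σ) = ((t : ℤ) : ZMod p) := by
  have hΔ := map_Δ_ne_zero hW.ne
  obtain ⟨ε, hε, hcp⟩ := Tate.charpoly_tateRep_frobenius_mult hΔ p hW hne hp2 hA hσ
  have htr : LinearMap.trace _ _ ((Tate.tateRep (W.map (Int.castRingHom ℚ)) hΔ p).ρ σ) =
      ε * ((q + 1 : ℤ) : ℤ_[p]) := by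
    have hfin := (Tate.tateRep (W.map (Int.castRingHom ℚ)) hΔ p).finrank_eq
    let b := Module.finBasisOfFinrankEq _ _ hfin
    rw [← LinearMap.charpoly_toMatrix _ b, Matrix.charpoly_fin_two] at hcp
    rw [LinearMap.trace_eq_matrix_trace _ b]
    have h1 := congrArg (fun f => coeff f 1) hcp
    simp only [mul_sub, sub_mul, coeff_sub, coeff_add, coeff_mul_C, coeff_mul_X, coeff_X, coeff_C,
      coeff_X_pow] at h1
    norm_num at h1
    push_cast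
    linear_combination -h1
  have hε' : ε = 1 ∨ ε = -1 := mul_self_eq_one_iff.mp (by rw [← sq]; exact hε)
  obtain ⟨t, ht, ht'⟩ : ∃ t : ℤ, (t = (q + 1 : ℤ) ∨ t = -(q + 1 : ℤ)) ∧
      ε * ((q + 1 : ℤ) : ℤ_[p]) = ((t : ℤ) : ℤ_[p]) := by
    rcases hε' with rfl | rfl
    · exact ⟨_, Or.inl rfl, by rw [one_mul]⟩
    · exact ⟨_, Or.inr rfl, by push_cast; ring⟩
  refine ⟨t, ht, ?_⟩
  have h1 := Tate.toZModPow_trace_tateRep hΔ p σ 1
  rw [htr, ht', map_intCast] at h1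
  have key : ∀ m : ℕ, m = p → ((t : ℤ) : ZMod m) =
      galoisTrace (K := AlgebraicClosure ℚ) ℚ (W.map (Int.castRingHom ℚ)) m σ →
      LinearMap.trace (ZMod p) _ (rho W p σ) = ((t : ℤ) : ZMod p) := by
    rintro m rfl h
    exact h.symm
  exact key (p ^ 1) (pow_one p) h1

/-- **The coefficient at a prime of multiplicative reduction.** -/
theorem coeff_mult_of_resMod {M : ℕ} (hM : M ≠ 0) (hΔ : W.Δ ≠ 0) (hp2 : p ≠ 2)
    {f : CuspForm (CongruenceSubgroup.Gamma0 M) 2} (hf : f.IsNormalizedEigenform)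
    {𝔪 : Ideal (integralClosure ℤ ℂ)} (h𝔪 : 𝔪.IsMaximal) (hp𝔪 : (p : integralClosure ℤ ℂ) ∈ 𝔪)
    (hcong : ∀ ℓ : ℕ, ℓ.Prime → W.IsGoodPrimeFor ℓ → ¬ ℓ ∣ M → ℓ ≠ p →
      ∃ a : integralClosure ℤ ℂ, (a : ℂ) = ModularFormClass.qCoeff f ℓ ∧
        a - ((W.apOfModel ℓ : ℤ) : integralClosure ℤ ℂ) ∈ 𝔪)
    {ℓ : ℕ} (hℓ : IsMultAt W ℓ) (hℓM : ¬ ℓ ∣ M) (hℓp : ℓ ≠ p) :
    ∃ a : integralClosure ℤ ℂ, (a : ℂ) = qCoeff f ℓ ∧
      (a - (ℓ + 1 : ℕ) ∈ 𝔪 ∨ a + (ℓ + 1 : ℕ) ∈ 𝔪) := by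
  letI instF : Field (integralClosure ℤ ℂ ⧸ 𝔪) := Ideal.Quotient.field 𝔪
  let φ : integralClosure ℤ ℂ →+* (integralClosure ℤ ℂ ⧸ 𝔪) := Ideal.Quotient.mk 𝔪
  haveI hchar : CharP (integralClosure ℤ ℂ ⧸ 𝔪) p := by
    rw [CharP.charP_iff_prime_eq_zero hp.out]
    have h1 : φ (p : integralClosure ℤ ℂ) = 0 := Ideal.Quotient.eq_zero_iff_mem.mpr hp𝔪
    rw [map_natCast] at h1
    exact h1
  have hS : ({p} ∪ {q | q ∣ M} : Set ℕ).Finite := by
    refine (Set.finite_singleton p).union ?_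
    refine (Finset.finite_toSet (M.divisors)).subset fun ℓ hℓ => ?_
    rw [Finset.mem_coe, Nat.mem_divisors]
    exact ⟨hℓ, hM⟩
  obtain ⟨ρ, hρ, -⟩ := Fermat.Agent.S29.result hf hp.out φ
  obtain ⟨A, hA, σ, hσ⟩ := Frob.exists_frobenius ℓ hℓ.prime
  obtain ⟨x, hx, hx'⟩ := coeff_eq_trace_of_attached hM hΔ φ ρ hρ hS (by
    intro q hq hqS hgood x hx
    simp only [Set.mem_union, Set.mem_ofPred_eq, Set.mem_singleton_iff, not_or] at hqS
    obtain ⟨b, hb, hb'⟩ := hcong q hq hgood hqS.2 hqS.1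
    have h1 : x = b := Subtype.ext (hx.trans hb.symm)
    rw [h1, ← sub_eq_zero, ← map_intCast φ, ← map_sub]
    exact Ideal.Quotient.eq_zero_iff_mem.mpr hb') hℓ.prime hℓM hℓp hA hσ
  obtain ⟨t, ht, ht'⟩ := trace_rho_frobenius_mult hℓ hℓp hp2 hA hσ
  rw [ht', map_intCast] at hx'
  refine ⟨x, hx, ?_⟩
  rcases ht with rfl | rfl
  · left
    rw [← Ideal.Quotient.eq_zero_iff_mem, map_sub, map_natCast, sub_eq_zero]
    change φ x = _
    rw [hx']
    push_cast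
    ring
  · right
    rw [← Ideal.Quotient.eq_zero_iff_mem, map_add, map_natCast]
    change φ x + _ = _
    rw [hx']
    push_cast
    ring

end Fermat.Agent.Cor
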